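import Fermat.Agent.S52.RSLineS.E

/-!
# S52: the line identity for `H`, staged (coefficients of t^0,1,2,3,4,5,6,7,8) (helper52, generated)
-/

set_option autoImplicit false
set_option maxHeartbeats 0
set_option maxRecDepth 1000000

namespace Fermat.Agent.S52

variable {R : Type*} [CommRing R]

theorem rsLine_coef_0 (p q : R) :
    -p ^ (4 : ℕ) + 228 * p ^ (3 : ℕ) * q - 494 * p ^ (2 : ℕ) * q ^ (2 : ℕ) - 228 * p * q ^ (3 : ℕ)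
      - q ^ (4 : ℕ)
      = klHH p q := by
  simp only [klA, klB, klHH, klTT]
  ring

theorem rsLine_coef_1 (p q : R) :
    -20 * p ^ (4 : ℕ) * klA p q + 3420 * p ^ (3 : ℕ) * q * klA p q - 1140 * p ^ (3 : ℕ) * q * klB p q
      - 4940 * p ^ (2 : ℕ) * q ^ (2 : ℕ) * klA p q + 4940 * p ^ (2 : ℕ) * q ^ (2 : ℕ) * klB p q
      - 1140 * p * q ^ (3 : ℕ) * klA p q + 3420 * p * q ^ (3 : ℕ) * klB p q
      + 20 * q ^ (4 : ℕ) * klB p q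
      = -20 * klTT p q := by
  simp only [klA, klB, klHH, klTT]
  ring

theorem rsLine_coef_2 (p q : R) :
    -190 * p ^ (4 : ℕ) * klA p q ^ (2 : ℕ) + 23940 * p ^ (3 : ℕ) * q * klA p q ^ (2 : ℕ)
      - 17100 * p ^ (3 : ℕ) * q * klA p q * klB p q + 2280 * p ^ (3 : ℕ) * q * klB p q ^ (2 : ℕ)
      - 22230 * p ^ (2 : ℕ) * q ^ (2 : ℕ) * klA p q ^ (2 : ℕ)
      + 49400 * p ^ (2 : ℕ) * q ^ (2 : ℕ) * klA p q * klB p q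
      - 22230 * p ^ (2 : ℕ) * q ^ (2 : ℕ) * klB p q ^ (2 : ℕ)
      - 2280 * p * q ^ (3 : ℕ) * klA p q ^ (2 : ℕ) + 17100 * p * q ^ (3 : ℕ) * klA p q * klB p q
      - 23940 * p * q ^ (3 : ℕ) * klB p q ^ (2 : ℕ) - 190 * q ^ (4 : ℕ) * klB p q ^ (2 : ℕ)
      = -190 * klHH p q ^ (2 : ℕ) := by
  simp only [klA, klB, klHH, klTT]
  ring

theorem rsLine_coef_3 (p q : R) :
    -1140 * p ^ (4 : ℕ) * klA p q ^ (3 : ℕ) + 103740 * p ^ (3 : ℕ) * q * klA p q ^ (3 : ℕ)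
      - 119700 * p ^ (3 : ℕ) * q * klA p q ^ (2 : ℕ) * klB p q
      + 34200 * p ^ (3 : ℕ) * q * klA p q * klB p q ^ (2 : ℕ)
      - 2280 * p ^ (3 : ℕ) * q * klB p q ^ (3 : ℕ)
      - 59280 * p ^ (2 : ℕ) * q ^ (2 : ℕ) * klA p q ^ (3 : ℕ)
      + 222300 * p ^ (2 : ℕ) * q ^ (2 : ℕ) * klA p q ^ (2 : ℕ) * klB p q
      - 222300 * p ^ (2 : ℕ) * q ^ (2 : ℕ) * klA p q * klB p q ^ (2 : ℕ)
      + 59280 * p ^ (2 : ℕ) * q ^ (2 : ℕ) * klB p q ^ (3 : ℕ)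
      - 2280 * p * q ^ (3 : ℕ) * klA p q ^ (3 : ℕ)
      + 34200 * p * q ^ (3 : ℕ) * klA p q ^ (2 : ℕ) * klB p q
      - 119700 * p * q ^ (3 : ℕ) * klA p q * klB p q ^ (2 : ℕ)
      + 103740 * p * q ^ (3 : ℕ) * klB p q ^ (3 : ℕ) + 1140 * q ^ (4 : ℕ) * klB p q ^ (3 : ℕ)
      = 1140 * klHH p q * klTT p q := by
  simp only [klA, klB, klHH, klTT]
  ring

theorem rsLine_coef_4 (p q : R) :
    -4845 * p ^ (4 : ℕ) * klA p q ^ (4 : ℕ) + 311220 * p ^ (3 : ℕ) * q * klA p q ^ (4 : ℕ)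
      - 518700 * p ^ (3 : ℕ) * q * klA p q ^ (3 : ℕ) * klB p q
      + 239400 * p ^ (3 : ℕ) * q * klA p q ^ (2 : ℕ) * klB p q ^ (2 : ℕ)
      - 34200 * p ^ (3 : ℕ) * q * klA p q * klB p q ^ (3 : ℕ)
      + 1140 * p ^ (3 : ℕ) * q * klB p q ^ (4 : ℕ)
      - 103740 * p ^ (2 : ℕ) * q ^ (2 : ℕ) * klA p q ^ (4 : ℕ)
      + 592800 * p ^ (2 : ℕ) * q ^ (2 : ℕ) * klA p q ^ (3 : ℕ) * klB p q
      - 1000350 * p ^ (2 : ℕ) * q ^ (2 : ℕ) * klA p q ^ (2 : ℕ) * klB p q ^ (2 : ℕ)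
      + 592800 * p ^ (2 : ℕ) * q ^ (2 : ℕ) * klA p q * klB p q ^ (3 : ℕ)
      - 103740 * p ^ (2 : ℕ) * q ^ (2 : ℕ) * klB p q ^ (4 : ℕ)
      - 1140 * p * q ^ (3 : ℕ) * klA p q ^ (4 : ℕ)
      + 34200 * p * q ^ (3 : ℕ) * klA p q ^ (3 : ℕ) * klB p q
      - 239400 * p * q ^ (3 : ℕ) * klA p q ^ (2 : ℕ) * klB p q ^ (2 : ℕ)
      + 518700 * p * q ^ (3 : ℕ) * klA p q * klB p q ^ (3 : ℕ)
      - 311220 * p * q ^ (3 : ℕ) * klB p q ^ (4 : ℕ) - 4845 * q ^ (4 : ℕ) * klB p q ^ (4 : ℕ)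
      = -855 * klHH p q ^ (3 : ℕ) - 5700 * klTT p q ^ (2 : ℕ) := by
  simp only [klA, klB, klHH, klTT]
  ring

theorem rsLine_coef_5 (p q : R) :
    -15504 * p ^ (4 : ℕ) * klA p q ^ (5 : ℕ) + 684684 * p ^ (3 : ℕ) * q * klA p q ^ (5 : ℕ)
      - 1556100 * p ^ (3 : ℕ) * q * klA p q ^ (4 : ℕ) * klB p q
      + 1037400 * p ^ (3 : ℕ) * q * klA p q ^ (3 : ℕ) * klB p q ^ (2 : ℕ)
      - 239400 * p ^ (3 : ℕ) * q * klA p q ^ (2 : ℕ) * klB p q ^ (3 : ℕ)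
      + 17100 * p ^ (3 : ℕ) * q * klA p q * klB p q ^ (4 : ℕ)
      - 228 * p ^ (3 : ℕ) * q * klB p q ^ (5 : ℕ)
      - 124488 * p ^ (2 : ℕ) * q ^ (2 : ℕ) * klA p q ^ (5 : ℕ)
      + 1037400 * p ^ (2 : ℕ) * q ^ (2 : ℕ) * klA p q ^ (4 : ℕ) * klB p q
      - 2667600 * p ^ (2 : ℕ) * q ^ (2 : ℕ) * klA p q ^ (3 : ℕ) * klB p q ^ (2 : ℕ)
      + 2667600 * p ^ (2 : ℕ) * q ^ (2 : ℕ) * klA p q ^ (2 : ℕ) * klB p q ^ (3 : ℕ)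
      - 1037400 * p ^ (2 : ℕ) * q ^ (2 : ℕ) * klA p q * klB p q ^ (4 : ℕ)
      + 124488 * p ^ (2 : ℕ) * q ^ (2 : ℕ) * klB p q ^ (5 : ℕ)
      - 228 * p * q ^ (3 : ℕ) * klA p q ^ (5 : ℕ)
      + 17100 * p * q ^ (3 : ℕ) * klA p q ^ (4 : ℕ) * klB p q
      - 239400 * p * q ^ (3 : ℕ) * klA p q ^ (3 : ℕ) * klB p q ^ (2 : ℕ)
      + 1037400 * p * q ^ (3 : ℕ) * klA p q ^ (2 : ℕ) * klB p q ^ (3 : ℕ)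
      - 1556100 * p * q ^ (3 : ℕ) * klA p q * klB p q ^ (4 : ℕ)
      + 684684 * p * q ^ (3 : ℕ) * klB p q ^ (5 : ℕ) + 15504 * q ^ (4 : ℕ) * klB p q ^ (5 : ℕ)
      = -15504 * klHH p q ^ (2 : ℕ) * klTT p q := by
  simp only [klA, klB, klHH, klTT]
  ring

theorem rsLine_coef_6 (p q : R) :
    -38760 * p ^ (4 : ℕ) * klA p q ^ (6 : ℕ) + 1141140 * p ^ (3 : ℕ) * q * klA p q ^ (6 : ℕ)
      - 3423420 * p ^ (3 : ℕ) * q * klA p q ^ (5 : ℕ) * klB p q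
      + 3112200 * p ^ (3 : ℕ) * q * klA p q ^ (4 : ℕ) * klB p q ^ (2 : ℕ)
      - 1037400 * p ^ (3 : ℕ) * q * klA p q ^ (3 : ℕ) * klB p q ^ (3 : ℕ)
      + 119700 * p ^ (3 : ℕ) * q * klA p q ^ (2 : ℕ) * klB p q ^ (4 : ℕ)
      - 3420 * p ^ (3 : ℕ) * q * klA p q * klB p q ^ (5 : ℕ)
      - 103740 * p ^ (2 : ℕ) * q ^ (2 : ℕ) * klA p q ^ (6 : ℕ)
      + 1244880 * p ^ (2 : ℕ) * q ^ (2 : ℕ) * klA p q ^ (5 : ℕ) * klB p q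
      - 4668300 * p ^ (2 : ℕ) * q ^ (2 : ℕ) * klA p q ^ (4 : ℕ) * klB p q ^ (2 : ℕ)
      + 7113600 * p ^ (2 : ℕ) * q ^ (2 : ℕ) * klA p q ^ (3 : ℕ) * klB p q ^ (3 : ℕ)
      - 4668300 * p ^ (2 : ℕ) * q ^ (2 : ℕ) * klA p q ^ (2 : ℕ) * klB p q ^ (4 : ℕ)
      + 1244880 * p ^ (2 : ℕ) * q ^ (2 : ℕ) * klA p q * klB p q ^ (5 : ℕ)
      - 103740 * p ^ (2 : ℕ) * q ^ (2 : ℕ) * klB p q ^ (6 : ℕ)
      + 3420 * p * q ^ (3 : ℕ) * klA p q ^ (5 : ℕ) * klB p q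
      - 119700 * p * q ^ (3 : ℕ) * klA p q ^ (4 : ℕ) * klB p q ^ (2 : ℕ)
      + 1037400 * p * q ^ (3 : ℕ) * klA p q ^ (3 : ℕ) * klB p q ^ (3 : ℕ)
      - 3112200 * p * q ^ (3 : ℕ) * klA p q ^ (2 : ℕ) * klB p q ^ (4 : ℕ)
      + 3423420 * p * q ^ (3 : ℕ) * klA p q * klB p q ^ (5 : ℕ)
      - 1141140 * p * q ^ (3 : ℕ) * klB p q ^ (6 : ℕ) - 38760 * q ^ (4 : ℕ) * klB p q ^ (6 : ℕ)
      = -102600 * klHH p q ^ (4 : ℕ) - 63840 * klHH p q * klTT p q ^ (2 : ℕ) := by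
  simp only [klA, klB, klHH, klTT]
  ring

theorem rsLine_coef_7 (p q : R) :
    -77520 * p ^ (4 : ℕ) * klA p q ^ (7 : ℕ) + 1467180 * p ^ (3 : ℕ) * q * klA p q ^ (7 : ℕ)
      - 5705700 * p ^ (3 : ℕ) * q * klA p q ^ (6 : ℕ) * klB p q
      + 6846840 * p ^ (3 : ℕ) * q * klA p q ^ (5 : ℕ) * klB p q ^ (2 : ℕ)
      - 3112200 * p ^ (3 : ℕ) * q * klA p q ^ (4 : ℕ) * klB p q ^ (3 : ℕ)
      + 518700 * p ^ (3 : ℕ) * q * klA p q ^ (3 : ℕ) * klB p q ^ (4 : ℕ)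
      - 23940 * p ^ (3 : ℕ) * q * klA p q ^ (2 : ℕ) * klB p q ^ (5 : ℕ)
      - 59280 * p ^ (2 : ℕ) * q ^ (2 : ℕ) * klA p q ^ (7 : ℕ)
      + 1037400 * p ^ (2 : ℕ) * q ^ (2 : ℕ) * klA p q ^ (6 : ℕ) * klB p q
      - 5601960 * p ^ (2 : ℕ) * q ^ (2 : ℕ) * klA p q ^ (5 : ℕ) * klB p q ^ (2 : ℕ)
      + 12448800 * p ^ (2 : ℕ) * q ^ (2 : ℕ) * klA p q ^ (4 : ℕ) * klB p q ^ (3 : ℕ)
      - 12448800 * p ^ (2 : ℕ) * q ^ (2 : ℕ) * klA p q ^ (3 : ℕ) * klB p q ^ (4 : ℕ)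
      + 5601960 * p ^ (2 : ℕ) * q ^ (2 : ℕ) * klA p q ^ (2 : ℕ) * klB p q ^ (5 : ℕ)
      - 1037400 * p ^ (2 : ℕ) * q ^ (2 : ℕ) * klA p q * klB p q ^ (6 : ℕ)
      + 59280 * p ^ (2 : ℕ) * q ^ (2 : ℕ) * klB p q ^ (7 : ℕ)
      - 23940 * p * q ^ (3 : ℕ) * klA p q ^ (5 : ℕ) * klB p q ^ (2 : ℕ)
      + 518700 * p * q ^ (3 : ℕ) * klA p q ^ (4 : ℕ) * klB p q ^ (3 : ℕ)
      - 3112200 * p * q ^ (3 : ℕ) * klA p q ^ (3 : ℕ) * klB p q ^ (4 : ℕ)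
      + 6846840 * p * q ^ (3 : ℕ) * klA p q ^ (2 : ℕ) * klB p q ^ (5 : ℕ)
      - 5705700 * p * q ^ (3 : ℕ) * klA p q * klB p q ^ (6 : ℕ)
      + 1467180 * p * q ^ (3 : ℕ) * klB p q ^ (7 : ℕ) + 77520 * q ^ (4 : ℕ) * klB p q ^ (7 : ℕ)
      = 259920 * klHH p q ^ (3 : ℕ) * klTT p q + 182400 * klTT p q ^ (3 : ℕ) := by
  simp only [klA, klB, klHH, klTT]
  ring

theorem rsLine_coef_8 (p q : R) :
    -125970 * p ^ (4 : ℕ) * klA p q ^ (8 : ℕ) + 1467180 * p ^ (3 : ℕ) * q * klA p q ^ (8 : ℕ)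
      - 7335900 * p ^ (3 : ℕ) * q * klA p q ^ (7 : ℕ) * klB p q
      + 11411400 * p ^ (3 : ℕ) * q * klA p q ^ (6 : ℕ) * klB p q ^ (2 : ℕ)
      - 6846840 * p ^ (3 : ℕ) * q * klA p q ^ (5 : ℕ) * klB p q ^ (3 : ℕ)
      + 1556100 * p ^ (3 : ℕ) * q * klA p q ^ (4 : ℕ) * klB p q ^ (4 : ℕ)
      - 103740 * p ^ (3 : ℕ) * q * klA p q ^ (3 : ℕ) * klB p q ^ (5 : ℕ)
      - 22230 * p ^ (2 : ℕ) * q ^ (2 : ℕ) * klA p q ^ (8 : ℕ)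
      + 592800 * p ^ (2 : ℕ) * q ^ (2 : ℕ) * klA p q ^ (7 : ℕ) * klB p q
      - 4668300 * p ^ (2 : ℕ) * q ^ (2 : ℕ) * klA p q ^ (6 : ℕ) * klB p q ^ (2 : ℕ)
      + 14938560 * p ^ (2 : ℕ) * q ^ (2 : ℕ) * klA p q ^ (5 : ℕ) * klB p q ^ (3 : ℕ)
      - 21785400 * p ^ (2 : ℕ) * q ^ (2 : ℕ) * klA p q ^ (4 : ℕ) * klB p q ^ (4 : ℕ)
      + 14938560 * p ^ (2 : ℕ) * q ^ (2 : ℕ) * klA p q ^ (3 : ℕ) * klB p q ^ (5 : ℕ)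
      - 4668300 * p ^ (2 : ℕ) * q ^ (2 : ℕ) * klA p q ^ (2 : ℕ) * klB p q ^ (6 : ℕ)
      + 592800 * p ^ (2 : ℕ) * q ^ (2 : ℕ) * klA p q * klB p q ^ (7 : ℕ)
      - 22230 * p ^ (2 : ℕ) * q ^ (2 : ℕ) * klB p q ^ (8 : ℕ)
      + 103740 * p * q ^ (3 : ℕ) * klA p q ^ (5 : ℕ) * klB p q ^ (3 : ℕ)
      - 1556100 * p * q ^ (3 : ℕ) * klA p q ^ (4 : ℕ) * klB p q ^ (4 : ℕ)
      + 6846840 * p * q ^ (3 : ℕ) * klA p q ^ (3 : ℕ) * klB p q ^ (5 : ℕ)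
      - 11411400 * p * q ^ (3 : ℕ) * klA p q ^ (2 : ℕ) * klB p q ^ (6 : ℕ)
      + 7335900 * p * q ^ (3 : ℕ) * klA p q * klB p q ^ (7 : ℕ)
      - 1467180 * p * q ^ (3 : ℕ) * klB p q ^ (8 : ℕ) - 125970 * q ^ (4 : ℕ) * klB p q ^ (8 : ℕ)
      = -1000350 * klHH p q ^ (5 : ℕ) - 1126320 * klHH p q ^ (2 : ℕ) * klTT p q ^ (2 : ℕ) := by
  simp only [klA, klB, klHH, klTT]
  ring


end Fermat.Agent.S52
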