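import Fermat.Agent.S52.RSLineS.C0

/-!
# S52: the line identity for `H`, staged (coefficients of t^9,10,11,12) (helper52, generated)
-/

set_option autoImplicit false
set_option maxHeartbeats 0
set_option maxRecDepth 1000000

namespace Fermat.Agent.S52

variable {R : Type*} [CommRing R]

theorem rsLine_coef_9 (p q : R) :
    -167960 * p ^ (4 : ℕ) * klA p q ^ (9 : ℕ) + 1141140 * p ^ (3 : ℕ) * q * klA p q ^ (9 : ℕ)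
      - 7335900 * p ^ (3 : ℕ) * q * klA p q ^ (8 : ℕ) * klB p q
      + 14671800 * p ^ (3 : ℕ) * q * klA p q ^ (7 : ℕ) * klB p q ^ (2 : ℕ)
      - 11411400 * p ^ (3 : ℕ) * q * klA p q ^ (6 : ℕ) * klB p q ^ (3 : ℕ)
      + 3423420 * p ^ (3 : ℕ) * q * klA p q ^ (5 : ℕ) * klB p q ^ (4 : ℕ)
      - 311220 * p ^ (3 : ℕ) * q * klA p q ^ (4 : ℕ) * klB p q ^ (5 : ℕ)
      - 4940 * p ^ (2 : ℕ) * q ^ (2 : ℕ) * klA p q ^ (9 : ℕ)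
      + 222300 * p ^ (2 : ℕ) * q ^ (2 : ℕ) * klA p q ^ (8 : ℕ) * klB p q
      - 2667600 * p ^ (2 : ℕ) * q ^ (2 : ℕ) * klA p q ^ (7 : ℕ) * klB p q ^ (2 : ℕ)
      + 12448800 * p ^ (2 : ℕ) * q ^ (2 : ℕ) * klA p q ^ (6 : ℕ) * klB p q ^ (3 : ℕ)
      - 26142480 * p ^ (2 : ℕ) * q ^ (2 : ℕ) * klA p q ^ (5 : ℕ) * klB p q ^ (4 : ℕ)
      + 26142480 * p ^ (2 : ℕ) * q ^ (2 : ℕ) * klA p q ^ (4 : ℕ) * klB p q ^ (5 : ℕ)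
      - 12448800 * p ^ (2 : ℕ) * q ^ (2 : ℕ) * klA p q ^ (3 : ℕ) * klB p q ^ (6 : ℕ)
      + 2667600 * p ^ (2 : ℕ) * q ^ (2 : ℕ) * klA p q ^ (2 : ℕ) * klB p q ^ (7 : ℕ)
      - 222300 * p ^ (2 : ℕ) * q ^ (2 : ℕ) * klA p q * klB p q ^ (8 : ℕ)
      + 4940 * p ^ (2 : ℕ) * q ^ (2 : ℕ) * klB p q ^ (9 : ℕ)
      - 311220 * p * q ^ (3 : ℕ) * klA p q ^ (5 : ℕ) * klB p q ^ (4 : ℕ)
      + 3423420 * p * q ^ (3 : ℕ) * klA p q ^ (4 : ℕ) * klB p q ^ (5 : ℕ)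
      - 11411400 * p * q ^ (3 : ℕ) * klA p q ^ (3 : ℕ) * klB p q ^ (6 : ℕ)
      + 14671800 * p * q ^ (3 : ℕ) * klA p q ^ (2 : ℕ) * klB p q ^ (7 : ℕ)
      - 7335900 * p * q ^ (3 : ℕ) * klA p q * klB p q ^ (8 : ℕ)
      + 1141140 * p * q ^ (3 : ℕ) * klB p q ^ (9 : ℕ) + 167960 * q ^ (4 : ℕ) * klB p q ^ (9 : ℕ)
      = 7736040 * klHH p q ^ (4 : ℕ) * klTT p q + 7904000 * klHH p q * klTT p q ^ (3 : ℕ) := by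
  simp only [klA, klB, klHH, klTT]
  ring

theorem rsLine_coef_10 (p q : R) :
    -184756 * p ^ (4 : ℕ) * klA p q ^ (10 : ℕ) + 684684 * p ^ (3 : ℕ) * q * klA p q ^ (10 : ℕ)
      - 5705700 * p ^ (3 : ℕ) * q * klA p q ^ (9 : ℕ) * klB p q
      + 14671800 * p ^ (3 : ℕ) * q * klA p q ^ (8 : ℕ) * klB p q ^ (2 : ℕ)
      - 14671800 * p ^ (3 : ℕ) * q * klA p q ^ (7 : ℕ) * klB p q ^ (3 : ℕ)
      + 5705700 * p ^ (3 : ℕ) * q * klA p q ^ (6 : ℕ) * klB p q ^ (4 : ℕ)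
      - 684684 * p ^ (3 : ℕ) * q * klA p q ^ (5 : ℕ) * klB p q ^ (5 : ℕ)
      - 494 * p ^ (2 : ℕ) * q ^ (2 : ℕ) * klA p q ^ (10 : ℕ)
      + 49400 * p ^ (2 : ℕ) * q ^ (2 : ℕ) * klA p q ^ (9 : ℕ) * klB p q
      - 1000350 * p ^ (2 : ℕ) * q ^ (2 : ℕ) * klA p q ^ (8 : ℕ) * klB p q ^ (2 : ℕ)
      + 7113600 * p ^ (2 : ℕ) * q ^ (2 : ℕ) * klA p q ^ (7 : ℕ) * klB p q ^ (3 : ℕ)
      - 21785400 * p ^ (2 : ℕ) * q ^ (2 : ℕ) * klA p q ^ (6 : ℕ) * klB p q ^ (4 : ℕ)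
      + 31370976 * p ^ (2 : ℕ) * q ^ (2 : ℕ) * klA p q ^ (5 : ℕ) * klB p q ^ (5 : ℕ)
      - 21785400 * p ^ (2 : ℕ) * q ^ (2 : ℕ) * klA p q ^ (4 : ℕ) * klB p q ^ (6 : ℕ)
      + 7113600 * p ^ (2 : ℕ) * q ^ (2 : ℕ) * klA p q ^ (3 : ℕ) * klB p q ^ (7 : ℕ)
      - 1000350 * p ^ (2 : ℕ) * q ^ (2 : ℕ) * klA p q ^ (2 : ℕ) * klB p q ^ (8 : ℕ)
      + 49400 * p ^ (2 : ℕ) * q ^ (2 : ℕ) * klA p q * klB p q ^ (9 : ℕ)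
      - 494 * p ^ (2 : ℕ) * q ^ (2 : ℕ) * klB p q ^ (10 : ℕ)
      + 684684 * p * q ^ (3 : ℕ) * klA p q ^ (5 : ℕ) * klB p q ^ (5 : ℕ)
      - 5705700 * p * q ^ (3 : ℕ) * klA p q ^ (4 : ℕ) * klB p q ^ (6 : ℕ)
      + 14671800 * p * q ^ (3 : ℕ) * klA p q ^ (3 : ℕ) * klB p q ^ (7 : ℕ)
      - 14671800 * p * q ^ (3 : ℕ) * klA p q ^ (2 : ℕ) * klB p q ^ (8 : ℕ)
      + 5705700 * p * q ^ (3 : ℕ) * klA p q * klB p q ^ (9 : ℕ)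
      - 684684 * p * q ^ (3 : ℕ) * klB p q ^ (10 : ℕ) - 184756 * q ^ (4 : ℕ) * klB p q ^ (10 : ℕ)
      = 10003500 * klHH p q ^ (6 : ℕ) - 5619744 * klHH p q ^ (3 : ℕ) * klTT p q ^ (2 : ℕ)
      - 15808000 * klTT p q ^ (4 : ℕ) := by
  simp only [klA, klB, klHH, klTT]
  ring

theorem rsLine_coef_11 (p q : R) :
    -167960 * p ^ (4 : ℕ) * klA p q ^ (11 : ℕ) + 311220 * p ^ (3 : ℕ) * q * klA p q ^ (11 : ℕ)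
      - 3423420 * p ^ (3 : ℕ) * q * klA p q ^ (10 : ℕ) * klB p q
      + 11411400 * p ^ (3 : ℕ) * q * klA p q ^ (9 : ℕ) * klB p q ^ (2 : ℕ)
      - 14671800 * p ^ (3 : ℕ) * q * klA p q ^ (8 : ℕ) * klB p q ^ (3 : ℕ)
      + 7335900 * p ^ (3 : ℕ) * q * klA p q ^ (7 : ℕ) * klB p q ^ (4 : ℕ)
      - 1141140 * p ^ (3 : ℕ) * q * klA p q ^ (6 : ℕ) * klB p q ^ (5 : ℕ)
      + 4940 * p ^ (2 : ℕ) * q ^ (2 : ℕ) * klA p q ^ (10 : ℕ) * klB p q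
      - 222300 * p ^ (2 : ℕ) * q ^ (2 : ℕ) * klA p q ^ (9 : ℕ) * klB p q ^ (2 : ℕ)
      + 2667600 * p ^ (2 : ℕ) * q ^ (2 : ℕ) * klA p q ^ (8 : ℕ) * klB p q ^ (3 : ℕ)
      - 12448800 * p ^ (2 : ℕ) * q ^ (2 : ℕ) * klA p q ^ (7 : ℕ) * klB p q ^ (4 : ℕ)
      + 26142480 * p ^ (2 : ℕ) * q ^ (2 : ℕ) * klA p q ^ (6 : ℕ) * klB p q ^ (5 : ℕ)
      - 26142480 * p ^ (2 : ℕ) * q ^ (2 : ℕ) * klA p q ^ (5 : ℕ) * klB p q ^ (6 : ℕ)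
      + 12448800 * p ^ (2 : ℕ) * q ^ (2 : ℕ) * klA p q ^ (4 : ℕ) * klB p q ^ (7 : ℕ)
      - 2667600 * p ^ (2 : ℕ) * q ^ (2 : ℕ) * klA p q ^ (3 : ℕ) * klB p q ^ (8 : ℕ)
      + 222300 * p ^ (2 : ℕ) * q ^ (2 : ℕ) * klA p q ^ (2 : ℕ) * klB p q ^ (9 : ℕ)
      - 4940 * p ^ (2 : ℕ) * q ^ (2 : ℕ) * klA p q * klB p q ^ (10 : ℕ)
      - 1141140 * p * q ^ (3 : ℕ) * klA p q ^ (5 : ℕ) * klB p q ^ (6 : ℕ)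
      + 7335900 * p * q ^ (3 : ℕ) * klA p q ^ (4 : ℕ) * klB p q ^ (7 : ℕ)
      - 14671800 * p * q ^ (3 : ℕ) * klA p q ^ (3 : ℕ) * klB p q ^ (8 : ℕ)
      + 11411400 * p * q ^ (3 : ℕ) * klA p q ^ (2 : ℕ) * klB p q ^ (9 : ℕ)
      - 3423420 * p * q ^ (3 : ℕ) * klA p q * klB p q ^ (10 : ℕ)
      + 311220 * p * q ^ (3 : ℕ) * klB p q ^ (11 : ℕ) + 167960 * q ^ (4 : ℕ) * klB p q ^ (11 : ℕ)
      = -54685800 * klHH p q ^ (5 : ℕ) * klTT p q - 54853760 * klHH p q ^ (2 : ℕ) * klTT p q ^ (3 : ℕ) := by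
  simp only [klA, klB, klHH, klTT]
  ring

theorem rsLine_coef_12 (p q : R) :
    -125970 * p ^ (4 : ℕ) * klA p q ^ (12 : ℕ) + 103740 * p ^ (3 : ℕ) * q * klA p q ^ (12 : ℕ)
      - 1556100 * p ^ (3 : ℕ) * q * klA p q ^ (11 : ℕ) * klB p q
      + 6846840 * p ^ (3 : ℕ) * q * klA p q ^ (10 : ℕ) * klB p q ^ (2 : ℕ)
      - 11411400 * p ^ (3 : ℕ) * q * klA p q ^ (9 : ℕ) * klB p q ^ (3 : ℕ)
      + 7335900 * p ^ (3 : ℕ) * q * klA p q ^ (8 : ℕ) * klB p q ^ (4 : ℕ)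
      - 1467180 * p ^ (3 : ℕ) * q * klA p q ^ (7 : ℕ) * klB p q ^ (5 : ℕ)
      - 22230 * p ^ (2 : ℕ) * q ^ (2 : ℕ) * klA p q ^ (10 : ℕ) * klB p q ^ (2 : ℕ)
      + 592800 * p ^ (2 : ℕ) * q ^ (2 : ℕ) * klA p q ^ (9 : ℕ) * klB p q ^ (3 : ℕ)
      - 4668300 * p ^ (2 : ℕ) * q ^ (2 : ℕ) * klA p q ^ (8 : ℕ) * klB p q ^ (4 : ℕ)
      + 14938560 * p ^ (2 : ℕ) * q ^ (2 : ℕ) * klA p q ^ (7 : ℕ) * klB p q ^ (5 : ℕ)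
      - 21785400 * p ^ (2 : ℕ) * q ^ (2 : ℕ) * klA p q ^ (6 : ℕ) * klB p q ^ (6 : ℕ)
      + 14938560 * p ^ (2 : ℕ) * q ^ (2 : ℕ) * klA p q ^ (5 : ℕ) * klB p q ^ (7 : ℕ)
      - 4668300 * p ^ (2 : ℕ) * q ^ (2 : ℕ) * klA p q ^ (4 : ℕ) * klB p q ^ (8 : ℕ)
      + 592800 * p ^ (2 : ℕ) * q ^ (2 : ℕ) * klA p q ^ (3 : ℕ) * klB p q ^ (9 : ℕ)
      - 22230 * p ^ (2 : ℕ) * q ^ (2 : ℕ) * klA p q ^ (2 : ℕ) * klB p q ^ (10 : ℕ)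
      + 1467180 * p * q ^ (3 : ℕ) * klA p q ^ (5 : ℕ) * klB p q ^ (7 : ℕ)
      - 7335900 * p * q ^ (3 : ℕ) * klA p q ^ (4 : ℕ) * klB p q ^ (8 : ℕ)
      + 11411400 * p * q ^ (3 : ℕ) * klA p q ^ (3 : ℕ) * klB p q ^ (9 : ℕ)
      - 6846840 * p * q ^ (3 : ℕ) * klA p q ^ (2 : ℕ) * klB p q ^ (10 : ℕ)
      + 1556100 * p * q ^ (3 : ℕ) * klA p q * klB p q ^ (11 : ℕ)
      - 103740 * p * q ^ (3 : ℕ) * klB p q ^ (12 : ℕ) - 125970 * q ^ (4 : ℕ) * klB p q ^ (12 : ℕ)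
      = -45015750 * klHH p q ^ (7 : ℕ) - 7202520 * klHH p q ^ (4 : ℕ) * klTT p q ^ (2 : ℕ)
      + 37939200 * klHH p q * klTT p q ^ (4 : ℕ) := by
  simp only [klA, klB, klHH, klTT]
  ring


end Fermat.Agent.S52
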