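import Fermat.Agent.S52.RSLineS.C1

/-!
# S52: the line identity for `H`, staged (coefficients of t^13,14,15) (helper52, generated)
-/

set_option autoImplicit false
set_option maxHeartbeats 0
set_option maxRecDepth 1000000

namespace Fermat.Agent.S52

variable {R : Type*} [CommRing R]

theorem rsLine_coef_13 (p q : R) :
    -77520 * p ^ (4 : ℕ) * klA p q ^ (13 : ℕ) + 23940 * p ^ (3 : ℕ) * q * klA p q ^ (13 : ℕ)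
      - 518700 * p ^ (3 : ℕ) * q * klA p q ^ (12 : ℕ) * klB p q
      + 3112200 * p ^ (3 : ℕ) * q * klA p q ^ (11 : ℕ) * klB p q ^ (2 : ℕ)
      - 6846840 * p ^ (3 : ℕ) * q * klA p q ^ (10 : ℕ) * klB p q ^ (3 : ℕ)
      + 5705700 * p ^ (3 : ℕ) * q * klA p q ^ (9 : ℕ) * klB p q ^ (4 : ℕ)
      - 1467180 * p ^ (3 : ℕ) * q * klA p q ^ (8 : ℕ) * klB p q ^ (5 : ℕ)
      + 59280 * p ^ (2 : ℕ) * q ^ (2 : ℕ) * klA p q ^ (10 : ℕ) * klB p q ^ (3 : ℕ)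
      - 1037400 * p ^ (2 : ℕ) * q ^ (2 : ℕ) * klA p q ^ (9 : ℕ) * klB p q ^ (4 : ℕ)
      + 5601960 * p ^ (2 : ℕ) * q ^ (2 : ℕ) * klA p q ^ (8 : ℕ) * klB p q ^ (5 : ℕ)
      - 12448800 * p ^ (2 : ℕ) * q ^ (2 : ℕ) * klA p q ^ (7 : ℕ) * klB p q ^ (6 : ℕ)
      + 12448800 * p ^ (2 : ℕ) * q ^ (2 : ℕ) * klA p q ^ (6 : ℕ) * klB p q ^ (7 : ℕ)
      - 5601960 * p ^ (2 : ℕ) * q ^ (2 : ℕ) * klA p q ^ (5 : ℕ) * klB p q ^ (8 : ℕ)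
      + 1037400 * p ^ (2 : ℕ) * q ^ (2 : ℕ) * klA p q ^ (4 : ℕ) * klB p q ^ (9 : ℕ)
      - 59280 * p ^ (2 : ℕ) * q ^ (2 : ℕ) * klA p q ^ (3 : ℕ) * klB p q ^ (10 : ℕ)
      - 1467180 * p * q ^ (3 : ℕ) * klA p q ^ (5 : ℕ) * klB p q ^ (8 : ℕ)
      + 5705700 * p * q ^ (3 : ℕ) * klA p q ^ (4 : ℕ) * klB p q ^ (9 : ℕ)
      - 6846840 * p * q ^ (3 : ℕ) * klA p q ^ (3 : ℕ) * klB p q ^ (10 : ℕ)
      + 3112200 * p * q ^ (3 : ℕ) * klA p q ^ (2 : ℕ) * klB p q ^ (11 : ℕ)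
      - 518700 * p * q ^ (3 : ℕ) * klA p q * klB p q ^ (12 : ℕ)
      + 23940 * p * q ^ (3 : ℕ) * klB p q ^ (13 : ℕ) + 77520 * q ^ (4 : ℕ) * klB p q ^ (13 : ℕ)
      = 35089200 * klHH p q ^ (6 : ℕ) * klTT p q - 23201280 * klHH p q ^ (3 : ℕ) * klTT p q ^ (3 : ℕ)
      - 58368000 * klTT p q ^ (5 : ℕ) := by
  simp only [klA, klB, klHH, klTT]
  ring

theorem rsLine_coef_14 (p q : R) :
    -38760 * p ^ (4 : ℕ) * klA p q ^ (14 : ℕ) + 3420 * p ^ (3 : ℕ) * q * klA p q ^ (14 : ℕ)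
      - 119700 * p ^ (3 : ℕ) * q * klA p q ^ (13 : ℕ) * klB p q
      + 1037400 * p ^ (3 : ℕ) * q * klA p q ^ (12 : ℕ) * klB p q ^ (2 : ℕ)
      - 3112200 * p ^ (3 : ℕ) * q * klA p q ^ (11 : ℕ) * klB p q ^ (3 : ℕ)
      + 3423420 * p ^ (3 : ℕ) * q * klA p q ^ (10 : ℕ) * klB p q ^ (4 : ℕ)
      - 1141140 * p ^ (3 : ℕ) * q * klA p q ^ (9 : ℕ) * klB p q ^ (5 : ℕ)
      - 103740 * p ^ (2 : ℕ) * q ^ (2 : ℕ) * klA p q ^ (10 : ℕ) * klB p q ^ (4 : ℕ)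
      + 1244880 * p ^ (2 : ℕ) * q ^ (2 : ℕ) * klA p q ^ (9 : ℕ) * klB p q ^ (5 : ℕ)
      - 4668300 * p ^ (2 : ℕ) * q ^ (2 : ℕ) * klA p q ^ (8 : ℕ) * klB p q ^ (6 : ℕ)
      + 7113600 * p ^ (2 : ℕ) * q ^ (2 : ℕ) * klA p q ^ (7 : ℕ) * klB p q ^ (7 : ℕ)
      - 4668300 * p ^ (2 : ℕ) * q ^ (2 : ℕ) * klA p q ^ (6 : ℕ) * klB p q ^ (8 : ℕ)
      + 1244880 * p ^ (2 : ℕ) * q ^ (2 : ℕ) * klA p q ^ (5 : ℕ) * klB p q ^ (9 : ℕ)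
      - 103740 * p ^ (2 : ℕ) * q ^ (2 : ℕ) * klA p q ^ (4 : ℕ) * klB p q ^ (10 : ℕ)
      + 1141140 * p * q ^ (3 : ℕ) * klA p q ^ (5 : ℕ) * klB p q ^ (9 : ℕ)
      - 3423420 * p * q ^ (3 : ℕ) * klA p q ^ (4 : ℕ) * klB p q ^ (10 : ℕ)
      + 3112200 * p * q ^ (3 : ℕ) * klA p q ^ (3 : ℕ) * klB p q ^ (11 : ℕ)
      - 1037400 * p * q ^ (3 : ℕ) * klA p q ^ (2 : ℕ) * klB p q ^ (12 : ℕ)
      + 119700 * p * q ^ (3 : ℕ) * klA p q * klB p q ^ (13 : ℕ)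
      - 3420 * p * q ^ (3 : ℕ) * klB p q ^ (14 : ℕ) - 38760 * q ^ (4 : ℕ) * klB p q ^ (14 : ℕ)
      = -207765000 * klHH p q ^ (8 : ℕ) - 495188640 * klHH p q ^ (5 : ℕ) * klTT p q ^ (2 : ℕ)
      - 287462400 * klHH p q ^ (2 : ℕ) * klTT p q ^ (4 : ℕ) := by
  simp only [klA, klB, klHH, klTT]
  ring

theorem rsLine_coef_15 (p q : R) :
    -15504 * p ^ (4 : ℕ) * klA p q ^ (15 : ℕ) + 228 * p ^ (3 : ℕ) * q * klA p q ^ (15 : ℕ)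
      - 17100 * p ^ (3 : ℕ) * q * klA p q ^ (14 : ℕ) * klB p q
      + 239400 * p ^ (3 : ℕ) * q * klA p q ^ (13 : ℕ) * klB p q ^ (2 : ℕ)
      - 1037400 * p ^ (3 : ℕ) * q * klA p q ^ (12 : ℕ) * klB p q ^ (3 : ℕ)
      + 1556100 * p ^ (3 : ℕ) * q * klA p q ^ (11 : ℕ) * klB p q ^ (4 : ℕ)
      - 684684 * p ^ (3 : ℕ) * q * klA p q ^ (10 : ℕ) * klB p q ^ (5 : ℕ)
      + 124488 * p ^ (2 : ℕ) * q ^ (2 : ℕ) * klA p q ^ (10 : ℕ) * klB p q ^ (5 : ℕ)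
      - 1037400 * p ^ (2 : ℕ) * q ^ (2 : ℕ) * klA p q ^ (9 : ℕ) * klB p q ^ (6 : ℕ)
      + 2667600 * p ^ (2 : ℕ) * q ^ (2 : ℕ) * klA p q ^ (8 : ℕ) * klB p q ^ (7 : ℕ)
      - 2667600 * p ^ (2 : ℕ) * q ^ (2 : ℕ) * klA p q ^ (7 : ℕ) * klB p q ^ (8 : ℕ)
      + 1037400 * p ^ (2 : ℕ) * q ^ (2 : ℕ) * klA p q ^ (6 : ℕ) * klB p q ^ (9 : ℕ)
      - 124488 * p ^ (2 : ℕ) * q ^ (2 : ℕ) * klA p q ^ (5 : ℕ) * klB p q ^ (10 : ℕ)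
      - 684684 * p * q ^ (3 : ℕ) * klA p q ^ (5 : ℕ) * klB p q ^ (10 : ℕ)
      + 1556100 * p * q ^ (3 : ℕ) * klA p q ^ (4 : ℕ) * klB p q ^ (11 : ℕ)
      - 1037400 * p * q ^ (3 : ℕ) * klA p q ^ (3 : ℕ) * klB p q ^ (12 : ℕ)
      + 239400 * p * q ^ (3 : ℕ) * klA p q ^ (2 : ℕ) * klB p q ^ (13 : ℕ)
      - 17100 * p * q ^ (3 : ℕ) * klA p q * klB p q ^ (14 : ℕ)
      + 228 * p * q ^ (3 : ℕ) * klB p q ^ (15 : ℕ) + 15504 * q ^ (4 : ℕ) * klB p q ^ (15 : ℕ)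
      = 415530000 * klHH p q ^ (7 : ℕ) * klTT p q + 882458496 * klHH p q ^ (4 : ℕ) * klTT p q ^ (3 : ℕ)
      + 466944000 * klHH p q * klTT p q ^ (5 : ℕ) := by
  simp only [klA, klB, klHH, klTT]
  ring


end Fermat.Agent.S52
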