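import Fermat.Agent.S52.RSLineS.C2

/-!
# S52: the line identity for `H`, staged (coefficients of t^16,17) (helper52, generated)
-/

set_option autoImplicit false
set_option maxHeartbeats 0
set_option maxRecDepth 1000000

namespace Fermat.Agent.S52

variable {R : Type*} [CommRing R]

theorem rsLine_coef_16 (p q : R) :
    -4845 * p ^ (4 : ℕ) * klA p q ^ (16 : ℕ) - 1140 * p ^ (3 : ℕ) * q * klA p q ^ (15 : ℕ) * klB p q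
      + 34200 * p ^ (3 : ℕ) * q * klA p q ^ (14 : ℕ) * klB p q ^ (2 : ℕ)
      - 239400 * p ^ (3 : ℕ) * q * klA p q ^ (13 : ℕ) * klB p q ^ (3 : ℕ)
      + 518700 * p ^ (3 : ℕ) * q * klA p q ^ (12 : ℕ) * klB p q ^ (4 : ℕ)
      - 311220 * p ^ (3 : ℕ) * q * klA p q ^ (11 : ℕ) * klB p q ^ (5 : ℕ)
      - 103740 * p ^ (2 : ℕ) * q ^ (2 : ℕ) * klA p q ^ (10 : ℕ) * klB p q ^ (6 : ℕ)
      + 592800 * p ^ (2 : ℕ) * q ^ (2 : ℕ) * klA p q ^ (9 : ℕ) * klB p q ^ (7 : ℕ)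
      - 1000350 * p ^ (2 : ℕ) * q ^ (2 : ℕ) * klA p q ^ (8 : ℕ) * klB p q ^ (8 : ℕ)
      + 592800 * p ^ (2 : ℕ) * q ^ (2 : ℕ) * klA p q ^ (7 : ℕ) * klB p q ^ (9 : ℕ)
      - 103740 * p ^ (2 : ℕ) * q ^ (2 : ℕ) * klA p q ^ (6 : ℕ) * klB p q ^ (10 : ℕ)
      + 311220 * p * q ^ (3 : ℕ) * klA p q ^ (5 : ℕ) * klB p q ^ (11 : ℕ)
      - 518700 * p * q ^ (3 : ℕ) * klA p q ^ (4 : ℕ) * klB p q ^ (12 : ℕ)
      + 239400 * p * q ^ (3 : ℕ) * klA p q ^ (3 : ℕ) * klB p q ^ (13 : ℕ)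
      - 34200 * p * q ^ (3 : ℕ) * klA p q ^ (2 : ℕ) * klB p q ^ (14 : ℕ)
      + 1140 * p * q ^ (3 : ℕ) * klA p q * klB p q ^ (15 : ℕ)
      - 4845 * q ^ (4 : ℕ) * klB p q ^ (16 : ℕ)
      = -77911875 * klHH p q ^ (9 : ℕ) - 714711600 * klHH p q ^ (6 : ℕ) * klTT p q ^ (2 : ℕ)
      - 1220474880 * klHH p q ^ (3 : ℕ) * klTT p q ^ (4 : ℕ) - 583680000 * klTT p q ^ (6 : ℕ) := by
  simp only [klA, klB, klHH, klTT]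
  ring

theorem rsLine_coef_17 (p q : R) :
    -1140 * p ^ (4 : ℕ) * klA p q ^ (17 : ℕ)
      + 2280 * p ^ (3 : ℕ) * q * klA p q ^ (15 : ℕ) * klB p q ^ (2 : ℕ)
      - 34200 * p ^ (3 : ℕ) * q * klA p q ^ (14 : ℕ) * klB p q ^ (3 : ℕ)
      + 119700 * p ^ (3 : ℕ) * q * klA p q ^ (13 : ℕ) * klB p q ^ (4 : ℕ)
      - 103740 * p ^ (3 : ℕ) * q * klA p q ^ (12 : ℕ) * klB p q ^ (5 : ℕ)
      + 59280 * p ^ (2 : ℕ) * q ^ (2 : ℕ) * klA p q ^ (10 : ℕ) * klB p q ^ (7 : ℕ)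
      - 222300 * p ^ (2 : ℕ) * q ^ (2 : ℕ) * klA p q ^ (9 : ℕ) * klB p q ^ (8 : ℕ)
      + 222300 * p ^ (2 : ℕ) * q ^ (2 : ℕ) * klA p q ^ (8 : ℕ) * klB p q ^ (9 : ℕ)
      - 59280 * p ^ (2 : ℕ) * q ^ (2 : ℕ) * klA p q ^ (7 : ℕ) * klB p q ^ (10 : ℕ)
      - 103740 * p * q ^ (3 : ℕ) * klA p q ^ (5 : ℕ) * klB p q ^ (12 : ℕ)
      + 119700 * p * q ^ (3 : ℕ) * klA p q ^ (4 : ℕ) * klB p q ^ (13 : ℕ)
      - 34200 * p * q ^ (3 : ℕ) * klA p q ^ (3 : ℕ) * klB p q ^ (14 : ℕ)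
      + 2280 * p * q ^ (3 : ℕ) * klA p q ^ (2 : ℕ) * klB p q ^ (15 : ℕ)
      + 1140 * q ^ (4 : ℕ) * klB p q ^ (17 : ℕ)
      = -353200500 * klHH p q ^ (8 : ℕ) * klTT p q - 715080960 * klHH p q ^ (5 : ℕ) * klTT p q ^ (3 : ℕ)
      - 361881600 * klHH p q ^ (2 : ℕ) * klTT p q ^ (5 : ℕ) := by
  simp only [klA, klB, klHH, klTT]
  ring


end Fermat.Agent.S52
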