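import Fermat.Agent.S52.RSLineS.C4

/-!
# S52: the line identity for `H`, staged (coefficients of t^19) (helper52, generated)
-/

set_option autoImplicit false
set_option maxHeartbeats 0
set_option maxRecDepth 1000000

namespace Fermat.Agent.S52

variable {R : Type*} [CommRing R]

theorem rsLine_coef_19 (p q : R) :
    -20 * p ^ (4 : ℕ) * klA p q ^ (19 : ℕ)
      + 1140 * p ^ (3 : ℕ) * q * klA p q ^ (15 : ℕ) * klB p q ^ (4 : ℕ)
      - 3420 * p ^ (3 : ℕ) * q * klA p q ^ (14 : ℕ) * klB p q ^ (5 : ℕ)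
      + 4940 * p ^ (2 : ℕ) * q ^ (2 : ℕ) * klA p q ^ (10 : ℕ) * klB p q ^ (9 : ℕ)
      - 4940 * p ^ (2 : ℕ) * q ^ (2 : ℕ) * klA p q ^ (9 : ℕ) * klB p q ^ (10 : ℕ)
      - 3420 * p * q ^ (3 : ℕ) * klA p q ^ (5 : ℕ) * klB p q ^ (14 : ℕ)
      + 1140 * p * q ^ (3 : ℕ) * klA p q ^ (4 : ℕ) * klB p q ^ (15 : ℕ)
      + 20 * q ^ (4 : ℕ) * klB p q ^ (19 : ℕ)
      = 694372500 * klHH p q ^ (9 : ℕ) * klTT p q + 2044414080 * klHH p q ^ (6 : ℕ) * klTT p q ^ (3 : ℕ)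
      + 2005401600 * klHH p q ^ (3 : ℕ) * klTT p q ^ (5 : ℕ) + 655360000 * klTT p q ^ (7 : ℕ) := by
  simp only [klA, klB, klHH, klTT]
  ring


end Fermat.Agent.S52
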