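import Fermat.Agent.S52.Klein.Forms

/-!
# S52: the line identity for `H`, staged (expansion in `t` with `A`, `B` as atoms) (helper52, generated)
-/

set_option autoImplicit false
set_option maxHeartbeats 0
set_option maxRecDepth 1000000

namespace Fermat.Agent.S52

variable {R : Type*} [CommRing R]

/-- expansion of `klHH (p (1 + t A)⁵) (q (1 - t B)⁵)` -/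
def rsLineE (p q t A B : R) : R :=
  -p ^ (4 : ℕ) + 228 * p ^ (3 : ℕ) * q - 494 * p ^ (2 : ℕ) * q ^ (2 : ℕ) - 228 * p * q ^ (3 : ℕ)
    - q ^ (4 : ℕ) - 20 * p ^ (4 : ℕ) * t * A - 1140 * p ^ (3 : ℕ) * q * t * B
    + 3420 * p ^ (3 : ℕ) * q * t * A + 4940 * p ^ (2 : ℕ) * q ^ (2 : ℕ) * t * B
    - 4940 * p ^ (2 : ℕ) * q ^ (2 : ℕ) * t * A + 3420 * p * q ^ (3 : ℕ) * t * B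
    - 1140 * p * q ^ (3 : ℕ) * t * A + 20 * q ^ (4 : ℕ) * t * B
    - 190 * p ^ (4 : ℕ) * t ^ (2 : ℕ) * A ^ (2 : ℕ)
    + 2280 * p ^ (3 : ℕ) * q * t ^ (2 : ℕ) * B ^ (2 : ℕ)
    - 17100 * p ^ (3 : ℕ) * q * t ^ (2 : ℕ) * A * B
    + 23940 * p ^ (3 : ℕ) * q * t ^ (2 : ℕ) * A ^ (2 : ℕ)
    - 22230 * p ^ (2 : ℕ) * q ^ (2 : ℕ) * t ^ (2 : ℕ) * B ^ (2 : ℕ)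
    + 49400 * p ^ (2 : ℕ) * q ^ (2 : ℕ) * t ^ (2 : ℕ) * A * B
    - 22230 * p ^ (2 : ℕ) * q ^ (2 : ℕ) * t ^ (2 : ℕ) * A ^ (2 : ℕ)
    - 23940 * p * q ^ (3 : ℕ) * t ^ (2 : ℕ) * B ^ (2 : ℕ)
    + 17100 * p * q ^ (3 : ℕ) * t ^ (2 : ℕ) * A * B
    - 2280 * p * q ^ (3 : ℕ) * t ^ (2 : ℕ) * A ^ (2 : ℕ)
    - 190 * q ^ (4 : ℕ) * t ^ (2 : ℕ) * B ^ (2 : ℕ) - 1140 * p ^ (4 : ℕ) * t ^ (3 : ℕ) * A ^ (3 : ℕ)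
    - 2280 * p ^ (3 : ℕ) * q * t ^ (3 : ℕ) * B ^ (3 : ℕ)
    + 34200 * p ^ (3 : ℕ) * q * t ^ (3 : ℕ) * A * B ^ (2 : ℕ)
    - 119700 * p ^ (3 : ℕ) * q * t ^ (3 : ℕ) * A ^ (2 : ℕ) * B
    + 103740 * p ^ (3 : ℕ) * q * t ^ (3 : ℕ) * A ^ (3 : ℕ)
    + 59280 * p ^ (2 : ℕ) * q ^ (2 : ℕ) * t ^ (3 : ℕ) * B ^ (3 : ℕ)
    - 222300 * p ^ (2 : ℕ) * q ^ (2 : ℕ) * t ^ (3 : ℕ) * A * B ^ (2 : ℕ)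
    + 222300 * p ^ (2 : ℕ) * q ^ (2 : ℕ) * t ^ (3 : ℕ) * A ^ (2 : ℕ) * B
    - 59280 * p ^ (2 : ℕ) * q ^ (2 : ℕ) * t ^ (3 : ℕ) * A ^ (3 : ℕ)
    + 103740 * p * q ^ (3 : ℕ) * t ^ (3 : ℕ) * B ^ (3 : ℕ)
    - 119700 * p * q ^ (3 : ℕ) * t ^ (3 : ℕ) * A * B ^ (2 : ℕ)
    + 34200 * p * q ^ (3 : ℕ) * t ^ (3 : ℕ) * A ^ (2 : ℕ) * B
    - 2280 * p * q ^ (3 : ℕ) * t ^ (3 : ℕ) * A ^ (3 : ℕ)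
    + 1140 * q ^ (4 : ℕ) * t ^ (3 : ℕ) * B ^ (3 : ℕ)
    - 4845 * p ^ (4 : ℕ) * t ^ (4 : ℕ) * A ^ (4 : ℕ)
    + 1140 * p ^ (3 : ℕ) * q * t ^ (4 : ℕ) * B ^ (4 : ℕ)
    - 34200 * p ^ (3 : ℕ) * q * t ^ (4 : ℕ) * A * B ^ (3 : ℕ)
    + 239400 * p ^ (3 : ℕ) * q * t ^ (4 : ℕ) * A ^ (2 : ℕ) * B ^ (2 : ℕ)
    - 518700 * p ^ (3 : ℕ) * q * t ^ (4 : ℕ) * A ^ (3 : ℕ) * B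
    + 311220 * p ^ (3 : ℕ) * q * t ^ (4 : ℕ) * A ^ (4 : ℕ)
    - 103740 * p ^ (2 : ℕ) * q ^ (2 : ℕ) * t ^ (4 : ℕ) * B ^ (4 : ℕ)
    + 592800 * p ^ (2 : ℕ) * q ^ (2 : ℕ) * t ^ (4 : ℕ) * A * B ^ (3 : ℕ)
    - 1000350 * p ^ (2 : ℕ) * q ^ (2 : ℕ) * t ^ (4 : ℕ) * A ^ (2 : ℕ) * B ^ (2 : ℕ)
    + 592800 * p ^ (2 : ℕ) * q ^ (2 : ℕ) * t ^ (4 : ℕ) * A ^ (3 : ℕ) * B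
    - 103740 * p ^ (2 : ℕ) * q ^ (2 : ℕ) * t ^ (4 : ℕ) * A ^ (4 : ℕ)
    - 311220 * p * q ^ (3 : ℕ) * t ^ (4 : ℕ) * B ^ (4 : ℕ)
    + 518700 * p * q ^ (3 : ℕ) * t ^ (4 : ℕ) * A * B ^ (3 : ℕ)
    - 239400 * p * q ^ (3 : ℕ) * t ^ (4 : ℕ) * A ^ (2 : ℕ) * B ^ (2 : ℕ)
    + 34200 * p * q ^ (3 : ℕ) * t ^ (4 : ℕ) * A ^ (3 : ℕ) * B
    - 1140 * p * q ^ (3 : ℕ) * t ^ (4 : ℕ) * A ^ (4 : ℕ)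
    - 4845 * q ^ (4 : ℕ) * t ^ (4 : ℕ) * B ^ (4 : ℕ)
    - 15504 * p ^ (4 : ℕ) * t ^ (5 : ℕ) * A ^ (5 : ℕ)
    - 228 * p ^ (3 : ℕ) * q * t ^ (5 : ℕ) * B ^ (5 : ℕ)
    + 17100 * p ^ (3 : ℕ) * q * t ^ (5 : ℕ) * A * B ^ (4 : ℕ)
    - 239400 * p ^ (3 : ℕ) * q * t ^ (5 : ℕ) * A ^ (2 : ℕ) * B ^ (3 : ℕ)
    + 1037400 * p ^ (3 : ℕ) * q * t ^ (5 : ℕ) * A ^ (3 : ℕ) * B ^ (2 : ℕ)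
    - 1556100 * p ^ (3 : ℕ) * q * t ^ (5 : ℕ) * A ^ (4 : ℕ) * B
    + 684684 * p ^ (3 : ℕ) * q * t ^ (5 : ℕ) * A ^ (5 : ℕ)
    + 124488 * p ^ (2 : ℕ) * q ^ (2 : ℕ) * t ^ (5 : ℕ) * B ^ (5 : ℕ)
    - 1037400 * p ^ (2 : ℕ) * q ^ (2 : ℕ) * t ^ (5 : ℕ) * A * B ^ (4 : ℕ)
    + 2667600 * p ^ (2 : ℕ) * q ^ (2 : ℕ) * t ^ (5 : ℕ) * A ^ (2 : ℕ) * B ^ (3 : ℕ)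
    - 2667600 * p ^ (2 : ℕ) * q ^ (2 : ℕ) * t ^ (5 : ℕ) * A ^ (3 : ℕ) * B ^ (2 : ℕ)
    + 1037400 * p ^ (2 : ℕ) * q ^ (2 : ℕ) * t ^ (5 : ℕ) * A ^ (4 : ℕ) * B
    - 124488 * p ^ (2 : ℕ) * q ^ (2 : ℕ) * t ^ (5 : ℕ) * A ^ (5 : ℕ)
    + 684684 * p * q ^ (3 : ℕ) * t ^ (5 : ℕ) * B ^ (5 : ℕ)
    - 1556100 * p * q ^ (3 : ℕ) * t ^ (5 : ℕ) * A * B ^ (4 : ℕ)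
    + 1037400 * p * q ^ (3 : ℕ) * t ^ (5 : ℕ) * A ^ (2 : ℕ) * B ^ (3 : ℕ)
    - 239400 * p * q ^ (3 : ℕ) * t ^ (5 : ℕ) * A ^ (3 : ℕ) * B ^ (2 : ℕ)
    + 17100 * p * q ^ (3 : ℕ) * t ^ (5 : ℕ) * A ^ (4 : ℕ) * B
    - 228 * p * q ^ (3 : ℕ) * t ^ (5 : ℕ) * A ^ (5 : ℕ)
    + 15504 * q ^ (4 : ℕ) * t ^ (5 : ℕ) * B ^ (5 : ℕ)
    - 38760 * p ^ (4 : ℕ) * t ^ (6 : ℕ) * A ^ (6 : ℕ)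
    - 3420 * p ^ (3 : ℕ) * q * t ^ (6 : ℕ) * A * B ^ (5 : ℕ)
    + 119700 * p ^ (3 : ℕ) * q * t ^ (6 : ℕ) * A ^ (2 : ℕ) * B ^ (4 : ℕ)
    - 1037400 * p ^ (3 : ℕ) * q * t ^ (6 : ℕ) * A ^ (3 : ℕ) * B ^ (3 : ℕ)
    + 3112200 * p ^ (3 : ℕ) * q * t ^ (6 : ℕ) * A ^ (4 : ℕ) * B ^ (2 : ℕ)
    - 3423420 * p ^ (3 : ℕ) * q * t ^ (6 : ℕ) * A ^ (5 : ℕ) * B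
    + 1141140 * p ^ (3 : ℕ) * q * t ^ (6 : ℕ) * A ^ (6 : ℕ)
    - 103740 * p ^ (2 : ℕ) * q ^ (2 : ℕ) * t ^ (6 : ℕ) * B ^ (6 : ℕ)
    + 1244880 * p ^ (2 : ℕ) * q ^ (2 : ℕ) * t ^ (6 : ℕ) * A * B ^ (5 : ℕ)
    - 4668300 * p ^ (2 : ℕ) * q ^ (2 : ℕ) * t ^ (6 : ℕ) * A ^ (2 : ℕ) * B ^ (4 : ℕ)
    + 7113600 * p ^ (2 : ℕ) * q ^ (2 : ℕ) * t ^ (6 : ℕ) * A ^ (3 : ℕ) * B ^ (3 : ℕ)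
    - 4668300 * p ^ (2 : ℕ) * q ^ (2 : ℕ) * t ^ (6 : ℕ) * A ^ (4 : ℕ) * B ^ (2 : ℕ)
    + 1244880 * p ^ (2 : ℕ) * q ^ (2 : ℕ) * t ^ (6 : ℕ) * A ^ (5 : ℕ) * B
    - 103740 * p ^ (2 : ℕ) * q ^ (2 : ℕ) * t ^ (6 : ℕ) * A ^ (6 : ℕ)
    - 1141140 * p * q ^ (3 : ℕ) * t ^ (6 : ℕ) * B ^ (6 : ℕ)
    + 3423420 * p * q ^ (3 : ℕ) * t ^ (6 : ℕ) * A * B ^ (5 : ℕ)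
    - 3112200 * p * q ^ (3 : ℕ) * t ^ (6 : ℕ) * A ^ (2 : ℕ) * B ^ (4 : ℕ)
    + 1037400 * p * q ^ (3 : ℕ) * t ^ (6 : ℕ) * A ^ (3 : ℕ) * B ^ (3 : ℕ)
    - 119700 * p * q ^ (3 : ℕ) * t ^ (6 : ℕ) * A ^ (4 : ℕ) * B ^ (2 : ℕ)
    + 3420 * p * q ^ (3 : ℕ) * t ^ (6 : ℕ) * A ^ (5 : ℕ) * B
    - 38760 * q ^ (4 : ℕ) * t ^ (6 : ℕ) * B ^ (6 : ℕ)
    - 77520 * p ^ (4 : ℕ) * t ^ (7 : ℕ) * A ^ (7 : ℕ)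
    - 23940 * p ^ (3 : ℕ) * q * t ^ (7 : ℕ) * A ^ (2 : ℕ) * B ^ (5 : ℕ)
    + 518700 * p ^ (3 : ℕ) * q * t ^ (7 : ℕ) * A ^ (3 : ℕ) * B ^ (4 : ℕ)
    - 3112200 * p ^ (3 : ℕ) * q * t ^ (7 : ℕ) * A ^ (4 : ℕ) * B ^ (3 : ℕ)
    + 6846840 * p ^ (3 : ℕ) * q * t ^ (7 : ℕ) * A ^ (5 : ℕ) * B ^ (2 : ℕ)
    - 5705700 * p ^ (3 : ℕ) * q * t ^ (7 : ℕ) * A ^ (6 : ℕ) * B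
    + 1467180 * p ^ (3 : ℕ) * q * t ^ (7 : ℕ) * A ^ (7 : ℕ)
    + 59280 * p ^ (2 : ℕ) * q ^ (2 : ℕ) * t ^ (7 : ℕ) * B ^ (7 : ℕ)
    - 1037400 * p ^ (2 : ℕ) * q ^ (2 : ℕ) * t ^ (7 : ℕ) * A * B ^ (6 : ℕ)
    + 5601960 * p ^ (2 : ℕ) * q ^ (2 : ℕ) * t ^ (7 : ℕ) * A ^ (2 : ℕ) * B ^ (5 : ℕ)
    - 12448800 * p ^ (2 : ℕ) * q ^ (2 : ℕ) * t ^ (7 : ℕ) * A ^ (3 : ℕ) * B ^ (4 : ℕ)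
    + 12448800 * p ^ (2 : ℕ) * q ^ (2 : ℕ) * t ^ (7 : ℕ) * A ^ (4 : ℕ) * B ^ (3 : ℕ)
    - 5601960 * p ^ (2 : ℕ) * q ^ (2 : ℕ) * t ^ (7 : ℕ) * A ^ (5 : ℕ) * B ^ (2 : ℕ)
    + 1037400 * p ^ (2 : ℕ) * q ^ (2 : ℕ) * t ^ (7 : ℕ) * A ^ (6 : ℕ) * B
    - 59280 * p ^ (2 : ℕ) * q ^ (2 : ℕ) * t ^ (7 : ℕ) * A ^ (7 : ℕ)
    + 1467180 * p * q ^ (3 : ℕ) * t ^ (7 : ℕ) * B ^ (7 : ℕ)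
    - 5705700 * p * q ^ (3 : ℕ) * t ^ (7 : ℕ) * A * B ^ (6 : ℕ)
    + 6846840 * p * q ^ (3 : ℕ) * t ^ (7 : ℕ) * A ^ (2 : ℕ) * B ^ (5 : ℕ)
    - 3112200 * p * q ^ (3 : ℕ) * t ^ (7 : ℕ) * A ^ (3 : ℕ) * B ^ (4 : ℕ)
    + 518700 * p * q ^ (3 : ℕ) * t ^ (7 : ℕ) * A ^ (4 : ℕ) * B ^ (3 : ℕ)
    - 23940 * p * q ^ (3 : ℕ) * t ^ (7 : ℕ) * A ^ (5 : ℕ) * B ^ (2 : ℕ)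
    + 77520 * q ^ (4 : ℕ) * t ^ (7 : ℕ) * B ^ (7 : ℕ)
    - 125970 * p ^ (4 : ℕ) * t ^ (8 : ℕ) * A ^ (8 : ℕ)
    - 103740 * p ^ (3 : ℕ) * q * t ^ (8 : ℕ) * A ^ (3 : ℕ) * B ^ (5 : ℕ)
    + 1556100 * p ^ (3 : ℕ) * q * t ^ (8 : ℕ) * A ^ (4 : ℕ) * B ^ (4 : ℕ)
    - 6846840 * p ^ (3 : ℕ) * q * t ^ (8 : ℕ) * A ^ (5 : ℕ) * B ^ (3 : ℕ)
    + 11411400 * p ^ (3 : ℕ) * q * t ^ (8 : ℕ) * A ^ (6 : ℕ) * B ^ (2 : ℕ)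
    - 7335900 * p ^ (3 : ℕ) * q * t ^ (8 : ℕ) * A ^ (7 : ℕ) * B
    + 1467180 * p ^ (3 : ℕ) * q * t ^ (8 : ℕ) * A ^ (8 : ℕ)
    - 22230 * p ^ (2 : ℕ) * q ^ (2 : ℕ) * t ^ (8 : ℕ) * B ^ (8 : ℕ)
    + 592800 * p ^ (2 : ℕ) * q ^ (2 : ℕ) * t ^ (8 : ℕ) * A * B ^ (7 : ℕ)
    - 4668300 * p ^ (2 : ℕ) * q ^ (2 : ℕ) * t ^ (8 : ℕ) * A ^ (2 : ℕ) * B ^ (6 : ℕ)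
    + 14938560 * p ^ (2 : ℕ) * q ^ (2 : ℕ) * t ^ (8 : ℕ) * A ^ (3 : ℕ) * B ^ (5 : ℕ)
    - 21785400 * p ^ (2 : ℕ) * q ^ (2 : ℕ) * t ^ (8 : ℕ) * A ^ (4 : ℕ) * B ^ (4 : ℕ)
    + 14938560 * p ^ (2 : ℕ) * q ^ (2 : ℕ) * t ^ (8 : ℕ) * A ^ (5 : ℕ) * B ^ (3 : ℕ)
    - 4668300 * p ^ (2 : ℕ) * q ^ (2 : ℕ) * t ^ (8 : ℕ) * A ^ (6 : ℕ) * B ^ (2 : ℕ)
    + 592800 * p ^ (2 : ℕ) * q ^ (2 : ℕ) * t ^ (8 : ℕ) * A ^ (7 : ℕ) * B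
    - 22230 * p ^ (2 : ℕ) * q ^ (2 : ℕ) * t ^ (8 : ℕ) * A ^ (8 : ℕ)
    - 1467180 * p * q ^ (3 : ℕ) * t ^ (8 : ℕ) * B ^ (8 : ℕ)
    + 7335900 * p * q ^ (3 : ℕ) * t ^ (8 : ℕ) * A * B ^ (7 : ℕ)
    - 11411400 * p * q ^ (3 : ℕ) * t ^ (8 : ℕ) * A ^ (2 : ℕ) * B ^ (6 : ℕ)
    + 6846840 * p * q ^ (3 : ℕ) * t ^ (8 : ℕ) * A ^ (3 : ℕ) * B ^ (5 : ℕ)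
    - 1556100 * p * q ^ (3 : ℕ) * t ^ (8 : ℕ) * A ^ (4 : ℕ) * B ^ (4 : ℕ)
    + 103740 * p * q ^ (3 : ℕ) * t ^ (8 : ℕ) * A ^ (5 : ℕ) * B ^ (3 : ℕ)
    - 125970 * q ^ (4 : ℕ) * t ^ (8 : ℕ) * B ^ (8 : ℕ)
    - 167960 * p ^ (4 : ℕ) * t ^ (9 : ℕ) * A ^ (9 : ℕ)
    - 311220 * p ^ (3 : ℕ) * q * t ^ (9 : ℕ) * A ^ (4 : ℕ) * B ^ (5 : ℕ)
    + 3423420 * p ^ (3 : ℕ) * q * t ^ (9 : ℕ) * A ^ (5 : ℕ) * B ^ (4 : ℕ)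
    - 11411400 * p ^ (3 : ℕ) * q * t ^ (9 : ℕ) * A ^ (6 : ℕ) * B ^ (3 : ℕ)
    + 14671800 * p ^ (3 : ℕ) * q * t ^ (9 : ℕ) * A ^ (7 : ℕ) * B ^ (2 : ℕ)
    - 7335900 * p ^ (3 : ℕ) * q * t ^ (9 : ℕ) * A ^ (8 : ℕ) * B
    + 1141140 * p ^ (3 : ℕ) * q * t ^ (9 : ℕ) * A ^ (9 : ℕ)
    + 4940 * p ^ (2 : ℕ) * q ^ (2 : ℕ) * t ^ (9 : ℕ) * B ^ (9 : ℕ)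
    - 222300 * p ^ (2 : ℕ) * q ^ (2 : ℕ) * t ^ (9 : ℕ) * A * B ^ (8 : ℕ)
    + 2667600 * p ^ (2 : ℕ) * q ^ (2 : ℕ) * t ^ (9 : ℕ) * A ^ (2 : ℕ) * B ^ (7 : ℕ)
    - 12448800 * p ^ (2 : ℕ) * q ^ (2 : ℕ) * t ^ (9 : ℕ) * A ^ (3 : ℕ) * B ^ (6 : ℕ)
    + 26142480 * p ^ (2 : ℕ) * q ^ (2 : ℕ) * t ^ (9 : ℕ) * A ^ (4 : ℕ) * B ^ (5 : ℕ)
    - 26142480 * p ^ (2 : ℕ) * q ^ (2 : ℕ) * t ^ (9 : ℕ) * A ^ (5 : ℕ) * B ^ (4 : ℕ)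
    + 12448800 * p ^ (2 : ℕ) * q ^ (2 : ℕ) * t ^ (9 : ℕ) * A ^ (6 : ℕ) * B ^ (3 : ℕ)
    - 2667600 * p ^ (2 : ℕ) * q ^ (2 : ℕ) * t ^ (9 : ℕ) * A ^ (7 : ℕ) * B ^ (2 : ℕ)
    + 222300 * p ^ (2 : ℕ) * q ^ (2 : ℕ) * t ^ (9 : ℕ) * A ^ (8 : ℕ) * B
    - 4940 * p ^ (2 : ℕ) * q ^ (2 : ℕ) * t ^ (9 : ℕ) * A ^ (9 : ℕ)
    + 1141140 * p * q ^ (3 : ℕ) * t ^ (9 : ℕ) * B ^ (9 : ℕ)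
    - 7335900 * p * q ^ (3 : ℕ) * t ^ (9 : ℕ) * A * B ^ (8 : ℕ)
    + 14671800 * p * q ^ (3 : ℕ) * t ^ (9 : ℕ) * A ^ (2 : ℕ) * B ^ (7 : ℕ)
    - 11411400 * p * q ^ (3 : ℕ) * t ^ (9 : ℕ) * A ^ (3 : ℕ) * B ^ (6 : ℕ)
    + 3423420 * p * q ^ (3 : ℕ) * t ^ (9 : ℕ) * A ^ (4 : ℕ) * B ^ (5 : ℕ)
    - 311220 * p * q ^ (3 : ℕ) * t ^ (9 : ℕ) * A ^ (5 : ℕ) * B ^ (4 : ℕ)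
    + 167960 * q ^ (4 : ℕ) * t ^ (9 : ℕ) * B ^ (9 : ℕ)
    - 184756 * p ^ (4 : ℕ) * t ^ (10 : ℕ) * A ^ (10 : ℕ)
    - 684684 * p ^ (3 : ℕ) * q * t ^ (10 : ℕ) * A ^ (5 : ℕ) * B ^ (5 : ℕ)
    + 5705700 * p ^ (3 : ℕ) * q * t ^ (10 : ℕ) * A ^ (6 : ℕ) * B ^ (4 : ℕ)
    - 14671800 * p ^ (3 : ℕ) * q * t ^ (10 : ℕ) * A ^ (7 : ℕ) * B ^ (3 : ℕ)
    + 14671800 * p ^ (3 : ℕ) * q * t ^ (10 : ℕ) * A ^ (8 : ℕ) * B ^ (2 : ℕ)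
    - 5705700 * p ^ (3 : ℕ) * q * t ^ (10 : ℕ) * A ^ (9 : ℕ) * B
    + 684684 * p ^ (3 : ℕ) * q * t ^ (10 : ℕ) * A ^ (10 : ℕ)
    - 494 * p ^ (2 : ℕ) * q ^ (2 : ℕ) * t ^ (10 : ℕ) * B ^ (10 : ℕ)
    + 49400 * p ^ (2 : ℕ) * q ^ (2 : ℕ) * t ^ (10 : ℕ) * A * B ^ (9 : ℕ)
    - 1000350 * p ^ (2 : ℕ) * q ^ (2 : ℕ) * t ^ (10 : ℕ) * A ^ (2 : ℕ) * B ^ (8 : ℕ)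
    + 7113600 * p ^ (2 : ℕ) * q ^ (2 : ℕ) * t ^ (10 : ℕ) * A ^ (3 : ℕ) * B ^ (7 : ℕ)
    - 21785400 * p ^ (2 : ℕ) * q ^ (2 : ℕ) * t ^ (10 : ℕ) * A ^ (4 : ℕ) * B ^ (6 : ℕ)
    + 31370976 * p ^ (2 : ℕ) * q ^ (2 : ℕ) * t ^ (10 : ℕ) * A ^ (5 : ℕ) * B ^ (5 : ℕ)
    - 21785400 * p ^ (2 : ℕ) * q ^ (2 : ℕ) * t ^ (10 : ℕ) * A ^ (6 : ℕ) * B ^ (4 : ℕ)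
    + 7113600 * p ^ (2 : ℕ) * q ^ (2 : ℕ) * t ^ (10 : ℕ) * A ^ (7 : ℕ) * B ^ (3 : ℕ)
    - 1000350 * p ^ (2 : ℕ) * q ^ (2 : ℕ) * t ^ (10 : ℕ) * A ^ (8 : ℕ) * B ^ (2 : ℕ)
    + 49400 * p ^ (2 : ℕ) * q ^ (2 : ℕ) * t ^ (10 : ℕ) * A ^ (9 : ℕ) * B
    - 494 * p ^ (2 : ℕ) * q ^ (2 : ℕ) * t ^ (10 : ℕ) * A ^ (10 : ℕ)
    - 684684 * p * q ^ (3 : ℕ) * t ^ (10 : ℕ) * B ^ (10 : ℕ)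
    + 5705700 * p * q ^ (3 : ℕ) * t ^ (10 : ℕ) * A * B ^ (9 : ℕ)
    - 14671800 * p * q ^ (3 : ℕ) * t ^ (10 : ℕ) * A ^ (2 : ℕ) * B ^ (8 : ℕ)
    + 14671800 * p * q ^ (3 : ℕ) * t ^ (10 : ℕ) * A ^ (3 : ℕ) * B ^ (7 : ℕ)
    - 5705700 * p * q ^ (3 : ℕ) * t ^ (10 : ℕ) * A ^ (4 : ℕ) * B ^ (6 : ℕ)
    + 684684 * p * q ^ (3 : ℕ) * t ^ (10 : ℕ) * A ^ (5 : ℕ) * B ^ (5 : ℕ)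
    - 184756 * q ^ (4 : ℕ) * t ^ (10 : ℕ) * B ^ (10 : ℕ)
    - 167960 * p ^ (4 : ℕ) * t ^ (11 : ℕ) * A ^ (11 : ℕ)
    - 1141140 * p ^ (3 : ℕ) * q * t ^ (11 : ℕ) * A ^ (6 : ℕ) * B ^ (5 : ℕ)
    + 7335900 * p ^ (3 : ℕ) * q * t ^ (11 : ℕ) * A ^ (7 : ℕ) * B ^ (4 : ℕ)
    - 14671800 * p ^ (3 : ℕ) * q * t ^ (11 : ℕ) * A ^ (8 : ℕ) * B ^ (3 : ℕ)
    + 11411400 * p ^ (3 : ℕ) * q * t ^ (11 : ℕ) * A ^ (9 : ℕ) * B ^ (2 : ℕ)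
    - 3423420 * p ^ (3 : ℕ) * q * t ^ (11 : ℕ) * A ^ (10 : ℕ) * B
    + 311220 * p ^ (3 : ℕ) * q * t ^ (11 : ℕ) * A ^ (11 : ℕ)
    - 4940 * p ^ (2 : ℕ) * q ^ (2 : ℕ) * t ^ (11 : ℕ) * A * B ^ (10 : ℕ)
    + 222300 * p ^ (2 : ℕ) * q ^ (2 : ℕ) * t ^ (11 : ℕ) * A ^ (2 : ℕ) * B ^ (9 : ℕ)
    - 2667600 * p ^ (2 : ℕ) * q ^ (2 : ℕ) * t ^ (11 : ℕ) * A ^ (3 : ℕ) * B ^ (8 : ℕ)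
    + 12448800 * p ^ (2 : ℕ) * q ^ (2 : ℕ) * t ^ (11 : ℕ) * A ^ (4 : ℕ) * B ^ (7 : ℕ)
    - 26142480 * p ^ (2 : ℕ) * q ^ (2 : ℕ) * t ^ (11 : ℕ) * A ^ (5 : ℕ) * B ^ (6 : ℕ)
    + 26142480 * p ^ (2 : ℕ) * q ^ (2 : ℕ) * t ^ (11 : ℕ) * A ^ (6 : ℕ) * B ^ (5 : ℕ)
    - 12448800 * p ^ (2 : ℕ) * q ^ (2 : ℕ) * t ^ (11 : ℕ) * A ^ (7 : ℕ) * B ^ (4 : ℕ)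
    + 2667600 * p ^ (2 : ℕ) * q ^ (2 : ℕ) * t ^ (11 : ℕ) * A ^ (8 : ℕ) * B ^ (3 : ℕ)
    - 222300 * p ^ (2 : ℕ) * q ^ (2 : ℕ) * t ^ (11 : ℕ) * A ^ (9 : ℕ) * B ^ (2 : ℕ)
    + 4940 * p ^ (2 : ℕ) * q ^ (2 : ℕ) * t ^ (11 : ℕ) * A ^ (10 : ℕ) * B
    + 311220 * p * q ^ (3 : ℕ) * t ^ (11 : ℕ) * B ^ (11 : ℕ)
    - 3423420 * p * q ^ (3 : ℕ) * t ^ (11 : ℕ) * A * B ^ (10 : ℕ)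
    + 11411400 * p * q ^ (3 : ℕ) * t ^ (11 : ℕ) * A ^ (2 : ℕ) * B ^ (9 : ℕ)
    - 14671800 * p * q ^ (3 : ℕ) * t ^ (11 : ℕ) * A ^ (3 : ℕ) * B ^ (8 : ℕ)
    + 7335900 * p * q ^ (3 : ℕ) * t ^ (11 : ℕ) * A ^ (4 : ℕ) * B ^ (7 : ℕ)
    - 1141140 * p * q ^ (3 : ℕ) * t ^ (11 : ℕ) * A ^ (5 : ℕ) * B ^ (6 : ℕ)
    + 167960 * q ^ (4 : ℕ) * t ^ (11 : ℕ) * B ^ (11 : ℕ)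
    - 125970 * p ^ (4 : ℕ) * t ^ (12 : ℕ) * A ^ (12 : ℕ)
    - 1467180 * p ^ (3 : ℕ) * q * t ^ (12 : ℕ) * A ^ (7 : ℕ) * B ^ (5 : ℕ)
    + 7335900 * p ^ (3 : ℕ) * q * t ^ (12 : ℕ) * A ^ (8 : ℕ) * B ^ (4 : ℕ)
    - 11411400 * p ^ (3 : ℕ) * q * t ^ (12 : ℕ) * A ^ (9 : ℕ) * B ^ (3 : ℕ)
    + 6846840 * p ^ (3 : ℕ) * q * t ^ (12 : ℕ) * A ^ (10 : ℕ) * B ^ (2 : ℕ)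
    - 1556100 * p ^ (3 : ℕ) * q * t ^ (12 : ℕ) * A ^ (11 : ℕ) * B
    + 103740 * p ^ (3 : ℕ) * q * t ^ (12 : ℕ) * A ^ (12 : ℕ)
    - 22230 * p ^ (2 : ℕ) * q ^ (2 : ℕ) * t ^ (12 : ℕ) * A ^ (2 : ℕ) * B ^ (10 : ℕ)
    + 592800 * p ^ (2 : ℕ) * q ^ (2 : ℕ) * t ^ (12 : ℕ) * A ^ (3 : ℕ) * B ^ (9 : ℕ)
    - 4668300 * p ^ (2 : ℕ) * q ^ (2 : ℕ) * t ^ (12 : ℕ) * A ^ (4 : ℕ) * B ^ (8 : ℕ)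
    + 14938560 * p ^ (2 : ℕ) * q ^ (2 : ℕ) * t ^ (12 : ℕ) * A ^ (5 : ℕ) * B ^ (7 : ℕ)
    - 21785400 * p ^ (2 : ℕ) * q ^ (2 : ℕ) * t ^ (12 : ℕ) * A ^ (6 : ℕ) * B ^ (6 : ℕ)
    + 14938560 * p ^ (2 : ℕ) * q ^ (2 : ℕ) * t ^ (12 : ℕ) * A ^ (7 : ℕ) * B ^ (5 : ℕ)
    - 4668300 * p ^ (2 : ℕ) * q ^ (2 : ℕ) * t ^ (12 : ℕ) * A ^ (8 : ℕ) * B ^ (4 : ℕ)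
    + 592800 * p ^ (2 : ℕ) * q ^ (2 : ℕ) * t ^ (12 : ℕ) * A ^ (9 : ℕ) * B ^ (3 : ℕ)
    - 22230 * p ^ (2 : ℕ) * q ^ (2 : ℕ) * t ^ (12 : ℕ) * A ^ (10 : ℕ) * B ^ (2 : ℕ)
    - 103740 * p * q ^ (3 : ℕ) * t ^ (12 : ℕ) * B ^ (12 : ℕ)
    + 1556100 * p * q ^ (3 : ℕ) * t ^ (12 : ℕ) * A * B ^ (11 : ℕ)
    - 6846840 * p * q ^ (3 : ℕ) * t ^ (12 : ℕ) * A ^ (2 : ℕ) * B ^ (10 : ℕ)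
    + 11411400 * p * q ^ (3 : ℕ) * t ^ (12 : ℕ) * A ^ (3 : ℕ) * B ^ (9 : ℕ)
    - 7335900 * p * q ^ (3 : ℕ) * t ^ (12 : ℕ) * A ^ (4 : ℕ) * B ^ (8 : ℕ)
    + 1467180 * p * q ^ (3 : ℕ) * t ^ (12 : ℕ) * A ^ (5 : ℕ) * B ^ (7 : ℕ)
    - 125970 * q ^ (4 : ℕ) * t ^ (12 : ℕ) * B ^ (12 : ℕ)
    - 77520 * p ^ (4 : ℕ) * t ^ (13 : ℕ) * A ^ (13 : ℕ)
    - 1467180 * p ^ (3 : ℕ) * q * t ^ (13 : ℕ) * A ^ (8 : ℕ) * B ^ (5 : ℕ)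
    + 5705700 * p ^ (3 : ℕ) * q * t ^ (13 : ℕ) * A ^ (9 : ℕ) * B ^ (4 : ℕ)
    - 6846840 * p ^ (3 : ℕ) * q * t ^ (13 : ℕ) * A ^ (10 : ℕ) * B ^ (3 : ℕ)
    + 3112200 * p ^ (3 : ℕ) * q * t ^ (13 : ℕ) * A ^ (11 : ℕ) * B ^ (2 : ℕ)
    - 518700 * p ^ (3 : ℕ) * q * t ^ (13 : ℕ) * A ^ (12 : ℕ) * B
    + 23940 * p ^ (3 : ℕ) * q * t ^ (13 : ℕ) * A ^ (13 : ℕ)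
    - 59280 * p ^ (2 : ℕ) * q ^ (2 : ℕ) * t ^ (13 : ℕ) * A ^ (3 : ℕ) * B ^ (10 : ℕ)
    + 1037400 * p ^ (2 : ℕ) * q ^ (2 : ℕ) * t ^ (13 : ℕ) * A ^ (4 : ℕ) * B ^ (9 : ℕ)
    - 5601960 * p ^ (2 : ℕ) * q ^ (2 : ℕ) * t ^ (13 : ℕ) * A ^ (5 : ℕ) * B ^ (8 : ℕ)
    + 12448800 * p ^ (2 : ℕ) * q ^ (2 : ℕ) * t ^ (13 : ℕ) * A ^ (6 : ℕ) * B ^ (7 : ℕ)
    - 12448800 * p ^ (2 : ℕ) * q ^ (2 : ℕ) * t ^ (13 : ℕ) * A ^ (7 : ℕ) * B ^ (6 : ℕ)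
    + 5601960 * p ^ (2 : ℕ) * q ^ (2 : ℕ) * t ^ (13 : ℕ) * A ^ (8 : ℕ) * B ^ (5 : ℕ)
    - 1037400 * p ^ (2 : ℕ) * q ^ (2 : ℕ) * t ^ (13 : ℕ) * A ^ (9 : ℕ) * B ^ (4 : ℕ)
    + 59280 * p ^ (2 : ℕ) * q ^ (2 : ℕ) * t ^ (13 : ℕ) * A ^ (10 : ℕ) * B ^ (3 : ℕ)
    + 23940 * p * q ^ (3 : ℕ) * t ^ (13 : ℕ) * B ^ (13 : ℕ)
    - 518700 * p * q ^ (3 : ℕ) * t ^ (13 : ℕ) * A * B ^ (12 : ℕ)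
    + 3112200 * p * q ^ (3 : ℕ) * t ^ (13 : ℕ) * A ^ (2 : ℕ) * B ^ (11 : ℕ)
    - 6846840 * p * q ^ (3 : ℕ) * t ^ (13 : ℕ) * A ^ (3 : ℕ) * B ^ (10 : ℕ)
    + 5705700 * p * q ^ (3 : ℕ) * t ^ (13 : ℕ) * A ^ (4 : ℕ) * B ^ (9 : ℕ)
    - 1467180 * p * q ^ (3 : ℕ) * t ^ (13 : ℕ) * A ^ (5 : ℕ) * B ^ (8 : ℕ)
    + 77520 * q ^ (4 : ℕ) * t ^ (13 : ℕ) * B ^ (13 : ℕ)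
    - 38760 * p ^ (4 : ℕ) * t ^ (14 : ℕ) * A ^ (14 : ℕ)
    - 1141140 * p ^ (3 : ℕ) * q * t ^ (14 : ℕ) * A ^ (9 : ℕ) * B ^ (5 : ℕ)
    + 3423420 * p ^ (3 : ℕ) * q * t ^ (14 : ℕ) * A ^ (10 : ℕ) * B ^ (4 : ℕ)
    - 3112200 * p ^ (3 : ℕ) * q * t ^ (14 : ℕ) * A ^ (11 : ℕ) * B ^ (3 : ℕ)
    + 1037400 * p ^ (3 : ℕ) * q * t ^ (14 : ℕ) * A ^ (12 : ℕ) * B ^ (2 : ℕ)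
    - 119700 * p ^ (3 : ℕ) * q * t ^ (14 : ℕ) * A ^ (13 : ℕ) * B
    + 3420 * p ^ (3 : ℕ) * q * t ^ (14 : ℕ) * A ^ (14 : ℕ)
    - 103740 * p ^ (2 : ℕ) * q ^ (2 : ℕ) * t ^ (14 : ℕ) * A ^ (4 : ℕ) * B ^ (10 : ℕ)
    + 1244880 * p ^ (2 : ℕ) * q ^ (2 : ℕ) * t ^ (14 : ℕ) * A ^ (5 : ℕ) * B ^ (9 : ℕ)
    - 4668300 * p ^ (2 : ℕ) * q ^ (2 : ℕ) * t ^ (14 : ℕ) * A ^ (6 : ℕ) * B ^ (8 : ℕ)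
    + 7113600 * p ^ (2 : ℕ) * q ^ (2 : ℕ) * t ^ (14 : ℕ) * A ^ (7 : ℕ) * B ^ (7 : ℕ)
    - 4668300 * p ^ (2 : ℕ) * q ^ (2 : ℕ) * t ^ (14 : ℕ) * A ^ (8 : ℕ) * B ^ (6 : ℕ)
    + 1244880 * p ^ (2 : ℕ) * q ^ (2 : ℕ) * t ^ (14 : ℕ) * A ^ (9 : ℕ) * B ^ (5 : ℕ)
    - 103740 * p ^ (2 : ℕ) * q ^ (2 : ℕ) * t ^ (14 : ℕ) * A ^ (10 : ℕ) * B ^ (4 : ℕ)
    - 3420 * p * q ^ (3 : ℕ) * t ^ (14 : ℕ) * B ^ (14 : ℕ)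
    + 119700 * p * q ^ (3 : ℕ) * t ^ (14 : ℕ) * A * B ^ (13 : ℕ)
    - 1037400 * p * q ^ (3 : ℕ) * t ^ (14 : ℕ) * A ^ (2 : ℕ) * B ^ (12 : ℕ)
    + 3112200 * p * q ^ (3 : ℕ) * t ^ (14 : ℕ) * A ^ (3 : ℕ) * B ^ (11 : ℕ)
    - 3423420 * p * q ^ (3 : ℕ) * t ^ (14 : ℕ) * A ^ (4 : ℕ) * B ^ (10 : ℕ)
    + 1141140 * p * q ^ (3 : ℕ) * t ^ (14 : ℕ) * A ^ (5 : ℕ) * B ^ (9 : ℕ)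
    - 38760 * q ^ (4 : ℕ) * t ^ (14 : ℕ) * B ^ (14 : ℕ)
    - 15504 * p ^ (4 : ℕ) * t ^ (15 : ℕ) * A ^ (15 : ℕ)
    - 684684 * p ^ (3 : ℕ) * q * t ^ (15 : ℕ) * A ^ (10 : ℕ) * B ^ (5 : ℕ)
    + 1556100 * p ^ (3 : ℕ) * q * t ^ (15 : ℕ) * A ^ (11 : ℕ) * B ^ (4 : ℕ)
    - 1037400 * p ^ (3 : ℕ) * q * t ^ (15 : ℕ) * A ^ (12 : ℕ) * B ^ (3 : ℕ)
    + 239400 * p ^ (3 : ℕ) * q * t ^ (15 : ℕ) * A ^ (13 : ℕ) * B ^ (2 : ℕ)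
    - 17100 * p ^ (3 : ℕ) * q * t ^ (15 : ℕ) * A ^ (14 : ℕ) * B
    + 228 * p ^ (3 : ℕ) * q * t ^ (15 : ℕ) * A ^ (15 : ℕ)
    - 124488 * p ^ (2 : ℕ) * q ^ (2 : ℕ) * t ^ (15 : ℕ) * A ^ (5 : ℕ) * B ^ (10 : ℕ)
    + 1037400 * p ^ (2 : ℕ) * q ^ (2 : ℕ) * t ^ (15 : ℕ) * A ^ (6 : ℕ) * B ^ (9 : ℕ)
    - 2667600 * p ^ (2 : ℕ) * q ^ (2 : ℕ) * t ^ (15 : ℕ) * A ^ (7 : ℕ) * B ^ (8 : ℕ)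
    + 2667600 * p ^ (2 : ℕ) * q ^ (2 : ℕ) * t ^ (15 : ℕ) * A ^ (8 : ℕ) * B ^ (7 : ℕ)
    - 1037400 * p ^ (2 : ℕ) * q ^ (2 : ℕ) * t ^ (15 : ℕ) * A ^ (9 : ℕ) * B ^ (6 : ℕ)
    + 124488 * p ^ (2 : ℕ) * q ^ (2 : ℕ) * t ^ (15 : ℕ) * A ^ (10 : ℕ) * B ^ (5 : ℕ)
    + 228 * p * q ^ (3 : ℕ) * t ^ (15 : ℕ) * B ^ (15 : ℕ)
    - 17100 * p * q ^ (3 : ℕ) * t ^ (15 : ℕ) * A * B ^ (14 : ℕ)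
    + 239400 * p * q ^ (3 : ℕ) * t ^ (15 : ℕ) * A ^ (2 : ℕ) * B ^ (13 : ℕ)
    - 1037400 * p * q ^ (3 : ℕ) * t ^ (15 : ℕ) * A ^ (3 : ℕ) * B ^ (12 : ℕ)
    + 1556100 * p * q ^ (3 : ℕ) * t ^ (15 : ℕ) * A ^ (4 : ℕ) * B ^ (11 : ℕ)
    - 684684 * p * q ^ (3 : ℕ) * t ^ (15 : ℕ) * A ^ (5 : ℕ) * B ^ (10 : ℕ)
    + 15504 * q ^ (4 : ℕ) * t ^ (15 : ℕ) * B ^ (15 : ℕ)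
    - 4845 * p ^ (4 : ℕ) * t ^ (16 : ℕ) * A ^ (16 : ℕ)
    - 311220 * p ^ (3 : ℕ) * q * t ^ (16 : ℕ) * A ^ (11 : ℕ) * B ^ (5 : ℕ)
    + 518700 * p ^ (3 : ℕ) * q * t ^ (16 : ℕ) * A ^ (12 : ℕ) * B ^ (4 : ℕ)
    - 239400 * p ^ (3 : ℕ) * q * t ^ (16 : ℕ) * A ^ (13 : ℕ) * B ^ (3 : ℕ)
    + 34200 * p ^ (3 : ℕ) * q * t ^ (16 : ℕ) * A ^ (14 : ℕ) * B ^ (2 : ℕ)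
    - 1140 * p ^ (3 : ℕ) * q * t ^ (16 : ℕ) * A ^ (15 : ℕ) * B
    - 103740 * p ^ (2 : ℕ) * q ^ (2 : ℕ) * t ^ (16 : ℕ) * A ^ (6 : ℕ) * B ^ (10 : ℕ)
    + 592800 * p ^ (2 : ℕ) * q ^ (2 : ℕ) * t ^ (16 : ℕ) * A ^ (7 : ℕ) * B ^ (9 : ℕ)
    - 1000350 * p ^ (2 : ℕ) * q ^ (2 : ℕ) * t ^ (16 : ℕ) * A ^ (8 : ℕ) * B ^ (8 : ℕ)
    + 592800 * p ^ (2 : ℕ) * q ^ (2 : ℕ) * t ^ (16 : ℕ) * A ^ (9 : ℕ) * B ^ (7 : ℕ)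
    - 103740 * p ^ (2 : ℕ) * q ^ (2 : ℕ) * t ^ (16 : ℕ) * A ^ (10 : ℕ) * B ^ (6 : ℕ)
    + 1140 * p * q ^ (3 : ℕ) * t ^ (16 : ℕ) * A * B ^ (15 : ℕ)
    - 34200 * p * q ^ (3 : ℕ) * t ^ (16 : ℕ) * A ^ (2 : ℕ) * B ^ (14 : ℕ)
    + 239400 * p * q ^ (3 : ℕ) * t ^ (16 : ℕ) * A ^ (3 : ℕ) * B ^ (13 : ℕ)
    - 518700 * p * q ^ (3 : ℕ) * t ^ (16 : ℕ) * A ^ (4 : ℕ) * B ^ (12 : ℕ)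
    + 311220 * p * q ^ (3 : ℕ) * t ^ (16 : ℕ) * A ^ (5 : ℕ) * B ^ (11 : ℕ)
    - 4845 * q ^ (4 : ℕ) * t ^ (16 : ℕ) * B ^ (16 : ℕ)
    - 1140 * p ^ (4 : ℕ) * t ^ (17 : ℕ) * A ^ (17 : ℕ)
    - 103740 * p ^ (3 : ℕ) * q * t ^ (17 : ℕ) * A ^ (12 : ℕ) * B ^ (5 : ℕ)
    + 119700 * p ^ (3 : ℕ) * q * t ^ (17 : ℕ) * A ^ (13 : ℕ) * B ^ (4 : ℕ)
    - 34200 * p ^ (3 : ℕ) * q * t ^ (17 : ℕ) * A ^ (14 : ℕ) * B ^ (3 : ℕ)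
    + 2280 * p ^ (3 : ℕ) * q * t ^ (17 : ℕ) * A ^ (15 : ℕ) * B ^ (2 : ℕ)
    - 59280 * p ^ (2 : ℕ) * q ^ (2 : ℕ) * t ^ (17 : ℕ) * A ^ (7 : ℕ) * B ^ (10 : ℕ)
    + 222300 * p ^ (2 : ℕ) * q ^ (2 : ℕ) * t ^ (17 : ℕ) * A ^ (8 : ℕ) * B ^ (9 : ℕ)
    - 222300 * p ^ (2 : ℕ) * q ^ (2 : ℕ) * t ^ (17 : ℕ) * A ^ (9 : ℕ) * B ^ (8 : ℕ)
    + 59280 * p ^ (2 : ℕ) * q ^ (2 : ℕ) * t ^ (17 : ℕ) * A ^ (10 : ℕ) * B ^ (7 : ℕ)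
    + 2280 * p * q ^ (3 : ℕ) * t ^ (17 : ℕ) * A ^ (2 : ℕ) * B ^ (15 : ℕ)
    - 34200 * p * q ^ (3 : ℕ) * t ^ (17 : ℕ) * A ^ (3 : ℕ) * B ^ (14 : ℕ)
    + 119700 * p * q ^ (3 : ℕ) * t ^ (17 : ℕ) * A ^ (4 : ℕ) * B ^ (13 : ℕ)
    - 103740 * p * q ^ (3 : ℕ) * t ^ (17 : ℕ) * A ^ (5 : ℕ) * B ^ (12 : ℕ)
    + 1140 * q ^ (4 : ℕ) * t ^ (17 : ℕ) * B ^ (17 : ℕ)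
    - 190 * p ^ (4 : ℕ) * t ^ (18 : ℕ) * A ^ (18 : ℕ)
    - 23940 * p ^ (3 : ℕ) * q * t ^ (18 : ℕ) * A ^ (13 : ℕ) * B ^ (5 : ℕ)
    + 17100 * p ^ (3 : ℕ) * q * t ^ (18 : ℕ) * A ^ (14 : ℕ) * B ^ (4 : ℕ)
    - 2280 * p ^ (3 : ℕ) * q * t ^ (18 : ℕ) * A ^ (15 : ℕ) * B ^ (3 : ℕ)
    - 22230 * p ^ (2 : ℕ) * q ^ (2 : ℕ) * t ^ (18 : ℕ) * A ^ (8 : ℕ) * B ^ (10 : ℕ)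
    + 49400 * p ^ (2 : ℕ) * q ^ (2 : ℕ) * t ^ (18 : ℕ) * A ^ (9 : ℕ) * B ^ (9 : ℕ)
    - 22230 * p ^ (2 : ℕ) * q ^ (2 : ℕ) * t ^ (18 : ℕ) * A ^ (10 : ℕ) * B ^ (8 : ℕ)
    + 2280 * p * q ^ (3 : ℕ) * t ^ (18 : ℕ) * A ^ (3 : ℕ) * B ^ (15 : ℕ)
    - 17100 * p * q ^ (3 : ℕ) * t ^ (18 : ℕ) * A ^ (4 : ℕ) * B ^ (14 : ℕ)
    + 23940 * p * q ^ (3 : ℕ) * t ^ (18 : ℕ) * A ^ (5 : ℕ) * B ^ (13 : ℕ)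
    - 190 * q ^ (4 : ℕ) * t ^ (18 : ℕ) * B ^ (18 : ℕ)
    - 20 * p ^ (4 : ℕ) * t ^ (19 : ℕ) * A ^ (19 : ℕ)
    - 3420 * p ^ (3 : ℕ) * q * t ^ (19 : ℕ) * A ^ (14 : ℕ) * B ^ (5 : ℕ)
    + 1140 * p ^ (3 : ℕ) * q * t ^ (19 : ℕ) * A ^ (15 : ℕ) * B ^ (4 : ℕ)
    - 4940 * p ^ (2 : ℕ) * q ^ (2 : ℕ) * t ^ (19 : ℕ) * A ^ (9 : ℕ) * B ^ (10 : ℕ)
    + 4940 * p ^ (2 : ℕ) * q ^ (2 : ℕ) * t ^ (19 : ℕ) * A ^ (10 : ℕ) * B ^ (9 : ℕ)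
    + 1140 * p * q ^ (3 : ℕ) * t ^ (19 : ℕ) * A ^ (4 : ℕ) * B ^ (15 : ℕ)
    - 3420 * p * q ^ (3 : ℕ) * t ^ (19 : ℕ) * A ^ (5 : ℕ) * B ^ (14 : ℕ)
    + 20 * q ^ (4 : ℕ) * t ^ (19 : ℕ) * B ^ (19 : ℕ) - p ^ (4 : ℕ) * t ^ (20 : ℕ) * A ^ (20 : ℕ)
    - 228 * p ^ (3 : ℕ) * q * t ^ (20 : ℕ) * A ^ (15 : ℕ) * B ^ (5 : ℕ)
    - 494 * p ^ (2 : ℕ) * q ^ (2 : ℕ) * t ^ (20 : ℕ) * A ^ (10 : ℕ) * B ^ (10 : ℕ)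
    + 228 * p * q ^ (3 : ℕ) * t ^ (20 : ℕ) * A ^ (5 : ℕ) * B ^ (15 : ℕ)
    - q ^ (4 : ℕ) * t ^ (20 : ℕ) * B ^ (20 : ℕ)

theorem rsLineE_eq (p q t A B : R) :
    klHH (p * (1 + t * A) ^ 5) (q * (1 - t * B) ^ 5) = rsLineE p q t A B := by
  simp only [klHH, rsLineE]
  ring

end Fermat.Agent.S52
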