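import Fermat.Agent.S52.RSLineS.C6

/-!
# S52: the line identity for `H`, staged (assembly) (helper52, generated)
-/

set_option autoImplicit false
set_option maxHeartbeats 0
set_option maxRecDepth 1000000

namespace Fermat.Agent.S52

variable {R : Type*} [CommRing R]

theorem rsH_line_pqS (p q t : R) :
    klHH (p * (1 + t * klA p q) ^ 5) (q * (1 - t * klB p q) ^ 5)
      = rsH (klHH p q) (klTT p q) t := by
  rw [rsLineE_eq]
  simp only [rsLineE, rsH]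
  linear_combination rsLine_coef_0 p q + t ^ (1 : ℕ) * rsLine_coef_1 p q + t ^ (2 : ℕ) * rsLine_coef_2 p q + t ^ (3 : ℕ) * rsLine_coef_3 p q + t ^ (4 : ℕ) * rsLine_coef_4 p q + t ^ (5 : ℕ) * rsLine_coef_5 p q + t ^ (6 : ℕ) * rsLine_coef_6 p q + t ^ (7 : ℕ) * rsLine_coef_7 p q + t ^ (8 : ℕ) * rsLine_coef_8 p q + t ^ (9 : ℕ) * rsLine_coef_9 p q + t ^ (10 : ℕ) * rsLine_coef_10 p q + t ^ (11 : ℕ) * rsLine_coef_11 p q + t ^ (12 : ℕ) * rsLine_coef_12 p q + t ^ (13 : ℕ) * rsLine_coef_13 p q + t ^ (14 : ℕ) * rsLine_coef_14 p q + t ^ (15 : ℕ) * rsLine_coef_15 p q + t ^ (16 : ℕ) * rsLine_coef_16 p q + t ^ (17 : ℕ) * rsLine_coef_17 p q + t ^ (18 : ℕ) * rsLine_coef_18 p q + t ^ (19 : ℕ) * rsLine_coef_19 p q + t ^ (20 : ℕ) * rsLine_coef_20 p q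

end Fermat.Agent.S52
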